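import Fermat.Agent.ModFun.Finite
import Fermat.Agent.Gamma0.Coset
import Fermat.Agent.FF.Structure

/-!
# Consequences: function field instances and the arithmetic model
-/

set_option autoImplicit false

noncomputable section

open Polynomial IntermediateField ModularCurve

namespace Fermat.Agent.ModFun

theorem finrank_adjoin_algEquiv {K F F' : Type*} [Field K] [Field F] [Field F'] [Algebra K F]
    [Algebra K F'] (e : F ≃ₐ[K] F') (x : F) (h : FiniteDimensional K⟮x⟯ F) :
    FiniteDimensional K⟮e x⟯ F' ∧ Module.finrank K⟮e x⟯ F' = Module.finrank K⟮x⟯ F := by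
  let i : K⟮x⟯ ≃+* K⟮e x⟯ :=
    ((K⟮x⟯.equivMap e.toAlgHom).trans (IntermediateField.equivOfEq (by
      rw [IntermediateField.adjoin_map, Set.image_singleton]; rfl))).toRingEquiv
  have hc : (algebraMap K⟮e x⟯ F').comp i.toRingHom
      = e.toRingEquiv.toRingHom.comp (algebraMap K⟮x⟯ F) :=
    RingHom.ext fun _ => rfl
  exact ⟨Module.Finite.of_equiv_equiv i e.toRingEquiv hc,
    (Algebra.finrank_eq_of_equiv_equiv i e.toRingEquiv hc).symm⟩

/-- A shortcut for a slow instance search. -/
instance algebraLaurentBaseChange (K : Type*) [Field K] [Algebra ℚ K]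
    (F₀ : IntermediateField ℚ (LaurentSeries ℚ)) : Algebra K (laurentBaseChange K F₀) :=
  inferInstance

variable (N : ℕ) [NeZero N]

theorem natCard_coset : Nat.card (Coset N) = dedekindPsi N := Gamma0.natCard_quotient N

variable (K : Type*) [Field K]

omit [NeZero N] in
theorem transcendental_jK : Transcendental K (jK N K) := by
  rintro ⟨P, hP, h⟩
  refine hP (Igusa.aeval_jqModC_injective (k := K) ?_)
  have := congrArg (fun x : modularFunctionFieldFullC K N => (x : LaurentSeries K)) h
  simp only [ZeroMemClass.coe_zero] at this
  rw [map_zero, ← this]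
  exact (Polynomial.aeval_algHom_apply (modularFunctionFieldFullC K N).val (jK N K) P)

variable [CharZero K]

/-- `[F : K(j)] = ψ(N)`. -/
theorem finrank_fullC_eq_dedekindPsi :
    Module.finrank K⟮jK N K⟯ (modularFunctionFieldFullC K N) = dedekindPsi N :=
  (finrank_fullC N K).2.trans (natCard_coset N)

instance isFunctionField_fullC : FF.IsFunctionField K (modularFunctionFieldFullC K N) :=
  haveI := (finrank_fullC N K).1
  FF.isFunctionField_of_finite (transcendental_jK N K)

omit [CharZero K] [NeZero N] in
theorem laurentBaseChange_eq_fullC [Algebra ℚ K] :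
    laurentBaseChange K (modularFunctionFieldFull N) = modularFunctionFieldFullC K N := by
  refine le_antisymm ?_ ?_
  · rw [laurentBaseChange, IntermediateField.adjoin_le_iff]
    rintro _ ⟨y, hy, rfl⟩
    rw [SetLike.mem_coe, ← modularFunctionFieldFullC_rat, modularFunctionFieldFullC] at hy
    induction hy using IntermediateField.adjoin_induction with
    | mem z hz =>
      obtain ⟨d, hd, hdN, rfl⟩ := hz
      have := hd
      rw [coeffEmb, coeffMap_qExpand, coeffMap_jqModC]
      exact jqModCd_mem_full K N hdN
    | algebraMap c =>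
      rw [coeffEmb, algebraMap_laurentSeries_eq_single, coeffMap_single,
        ← algebraMap_laurentSeries_eq_single]
      exact (modularFunctionFieldFullC K N).algebraMap_mem _
    | add a c _ _ ha hc => rw [SetLike.mem_coe, map_add]; exact add_mem ha hc
    | inv a _ ha => rw [SetLike.mem_coe, map_inv₀]; exact inv_mem ha
    | mul a c _ _ ha hc => rw [SetLike.mem_coe, map_mul]; exact mul_mem ha hc
  · rw [modularFunctionFieldFullC, IntermediateField.adjoin_le_iff]
    rintro _ ⟨d, hd, hdN, rfl⟩
    have := hd
    have h := coeffEmb_mem_laurentBaseChange K (x := qExpand ℚ d jq)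
      (jqd_mem_full N hdN)
    rwa [coeffEmb, coeffMap_qExpand, ← jqModC_rat, coeffMap_jqModC] at h

omit [CharZero K] [NeZero N] in
/-- The base change of the rational model is the `K`-model. -/
def baseChangeEquiv [Algebra ℚ K] :
    modularFunctionFieldFullC K N ≃ₐ[K] laurentBaseChange K (modularFunctionFieldFull N) :=
  IntermediateField.equivOfEq (laurentBaseChange_eq_fullC N K).symm

omit [CharZero K] [NeZero N] in
/-- `j` in the base change of the rational model. -/
def jBase [Algebra ℚ K] : laurentBaseChange K (modularFunctionFieldFull N) :=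
  baseChangeEquiv N K (jK N K)

omit [CharZero K] [NeZero N] in
@[simp]
theorem coe_jBase [Algebra ℚ K] : (jBase N K : LaurentSeries K) = jqModC K := rfl

theorem finrank_baseChange [Algebra ℚ K] :
    FiniteDimensional K⟮jBase N K⟯ (laurentBaseChange K (modularFunctionFieldFull N)) ∧
    Module.finrank K⟮jBase N K⟯ (laurentBaseChange K (modularFunctionFieldFull N))
      = dedekindPsi N := by
  have h := finrank_adjoin_algEquiv (baseChangeEquiv N K) (jK N K) (finrank_fullC N K).1
  exact ⟨h.1, h.2.trans (finrank_fullC_eq_dedekindPsi N K)⟩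

omit [CharZero K] [NeZero N] in
theorem transcendental_jBase [Algebra ℚ K] : Transcendental K (jBase N K) := by
  rintro ⟨P, hP, h⟩
  refine transcendental_jK N K ⟨P, hP, (baseChangeEquiv N K).injective ?_⟩
  rw [map_zero, ← h]
  exact (Polynomial.aeval_algHom_apply (baseChangeEquiv N K).toAlgHom _ P).symm

instance isFunctionField_baseChange [Algebra ℚ K] :
    FF.IsFunctionField K (laurentBaseChange K (modularFunctionFieldFull N)) :=
  haveI := (finrank_baseChange N K).1
  FF.isFunctionField_of_finite (transcendental_jBase N K)

instance isFunctionField_bar :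
    FF.IsFunctionField (AlgebraicClosure ℚ) (modularFunctionFieldBar N) :=
  isFunctionField_baseChange N (AlgebraicClosure ℚ)

end Fermat.Agent.ModFun
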