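import Fermat.Agent.ModFun.Expansion
import Fermat.Prelude.Def_ModularCurve_JqCoeff
import Fermat.Prelude.Thm_ModularCurve_coeff_jqModC_pow_self
import Fermat.Prelude.Thm_ModularCurve_coeff_jqModC_pow_of_lt

/-!
# The `j`-function on `ℍ` and level one
-/

set_option autoImplicit false

noncomputable section

open UpperHalfPlane hiding I
open Function Filter Complex EisensteinSeries ModularForm
open scoped Manifold MatrixGroups Real Topology ModularForm

local notation "𝕢" => Periodic.qParam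

namespace Fermat.Agent.ModFun

/-! ### Taylor coefficients of the product `∏ (1 - q ^ (n + 1))` -/

/-- The partial products of `∏ (1 - X ^ (n + 1)) ^ 24`, times `X`. -/
def discPartial (N : ℕ) : Polynomial ℤ :=
  Polynomial.X * (∏ i ∈ Finset.range N, (1 - Polynomial.X ^ (i + 1))) ^ 24

theorem tendsto_coe_discPartial (d : ℕ) :
    ∀ᶠ N in atTop, (discPartial N).coeff d
      = PowerSeries.coeff d (PowerSeries.X * ModularCurve.dedekindEtaUnit) := by
  open scoped PowerSeries.WithPiTopology in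
  have h1 : Tendsto (fun N => PowerSeries.X
      * (∏ i ∈ Finset.range N, ((1 : PowerSeries ℤ) - PowerSeries.X ^ (i + 1))) ^ 24) atTop
      (𝓝 (PowerSeries.X * ModularCurve.dedekindEtaUnit)) :=
    ((PowerSeries.WithPiTopology.multipliable_one_sub_X_pow ℤ).hasProd.tendsto_prod_nat.pow
      24).const_mul _
  have h2 := ((PowerSeries.WithPiTopology.tendsto_iff_coeff_tendsto _ _ _ _).mp h1) d
  have h3 : ∀ᶠ N in atTop, PowerSeries.coeff d (PowerSeries.X
      * (∏ i ∈ Finset.range N, ((1 : PowerSeries ℤ) - PowerSeries.X ^ (i + 1))) ^ 24)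
      = PowerSeries.coeff d (PowerSeries.X * ModularCurve.dedekindEtaUnit) := by
    have h4 := h2
    rw [nhds_discrete, tendsto_pure] at h4
    exact h4
  filter_upwards [h3] with N hN
  rw [← hN, ← Polynomial.coeff_coe (R := ℤ)]
  congr 1
  simp only [discPartial, ← Polynomial.coeToPowerSeries.ringHom_apply, map_mul, map_pow, map_prod,
    map_sub, map_one]
  simp only [Polynomial.coeToPowerSeries.ringHom_apply, Polynomial.coe_X]

/-- The `m`-th Taylor coefficient at `0`. -/
def taylorCoeff (m : ℕ) (f : ℂ → ℂ) : ℂ := (m.factorial : ℂ)⁻¹ * iteratedDeriv m f 0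

theorem iteratedDeriv_polynomial (m : ℕ) (P : Polynomial ℂ) :
    iteratedDeriv m (fun q => P.eval q) = fun q => (Polynomial.derivative^[m] P).eval q := by
  induction m with
  | zero => simp
  | succ n ih =>
    rw [iteratedDeriv_succ, ih, Function.iterate_succ_apply']
    funext q
    exact Polynomial.deriv _

theorem taylorCoeff_polynomial (m : ℕ) (P : Polynomial ℂ) :
    taylorCoeff m (fun q => P.eval q) = P.coeff m := by
  rw [taylorCoeff, iteratedDeriv_polynomial]
  simp only
  rw [← Polynomial.coeff_zero_eq_eval_zero, Polynomial.coeff_iterate_derivative]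
  simp only [zero_add, Nat.descFactorial_self, nsmul_eq_mul]
  rw [← mul_assoc, inv_mul_cancel₀ (by exact_mod_cast Nat.factorial_ne_zero m), one_mul]

theorem tendsto_taylorCoeff {F : ℕ → ℂ → ℂ} {f : ℂ → ℂ}
    (hd : ∀ n, Differentiable ℂ (F n))
    (hf : TendstoLocallyUniformlyOn F f atTop (Metric.ball (0 : ℂ) 1)) (m : ℕ) :
    Tendsto (fun n => taylorCoeff m (F n)) atTop (𝓝 (taylorCoeff m f)) := by
  have key : ∀ k : ℕ, TendstoLocallyUniformlyOn (fun n => iteratedDeriv k (F n))
      (iteratedDeriv k f) atTop (Metric.ball (0 : ℂ) 1) := by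
    intro k
    induction k with
    | zero => simpa using hf
    | succ j ih =>
      simp only [iteratedDeriv_succ]
      refine ih.deriv (Eventually.of_forall fun n => ?_) Metric.isOpen_ball
      exact ((hd n).differentiableOn.analyticOnNhd Metric.isOpen_ball).iterated_deriv j
        |>.differentiableOn |>.congr fun z _ => by rw [iteratedDeriv_eq_iterate]
  exact ((key m).tendsto_at (Metric.mem_ball_self one_pos)).const_mul _

theorem cuspFunction_discriminant_eventuallyEq :
    cuspFunction 1 ModularForm.discriminant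
      =ᶠ[𝓝 (0 : ℂ)] fun q => q * (∏' i : ℕ, (1 - q ^ (i + 1))) ^ 24 := by
  filter_upwards [Metric.ball_mem_nhds (0 : ℂ) one_pos] with q hq
  rw [ModularForm.discriminant_cuspFunction_eqOn hq]
  simp only
  rw [← (ModularForm.multipliable_one_sub_pow (by simpa using hq)).tprod_pow]

theorem qExpansion_discriminant :
    qExpansion 1 ModularForm.discriminant
      = (PowerSeries.X * ModularCurve.dedekindEtaUnit).map (Int.castRingHom ℂ) := by
  ext m
  have h0 := ModularForm.multipliableLocallyUniformlyOn_one_sub_pow.hasProdLocallyUniformlyOn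
  have h1 : TendstoLocallyUniformlyOn
      (fun N (q : ℂ) => (discPartial N).map (Int.castRingHom ℂ) |>.eval q)
      (fun q => q * (∏' i : ℕ, (1 - q ^ (i + 1))) ^ 24) atTop (Metric.ball (0 : ℂ) 1) := by
    have hc : ContinuousOn (fun q : ℂ => ∏' i : ℕ, (1 - q ^ (i + 1))) (Metric.ball (0 : ℂ) 1) :=
      ModularForm.differentiableOn_tprod_one_sub_pow.continuousOn
    rw [tendstoLocallyUniformlyOn_iff_forall_tendsto]
    intro x hx
    have h2 : Tendsto (fun p : ℕ × ℂ => ∏ i ∈ Finset.range p.1, (1 - p.2 ^ (i + 1)))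
        (atTop ×ˢ 𝓝[Metric.ball (0 : ℂ) 1] x) (𝓝 (∏' i : ℕ, (1 - x ^ (i + 1)))) :=
      tendsto_prod_filter_of_locallyUniform h0 hc hx
    have h3 : Tendsto (fun p : ℕ × ℂ => (discPartial p.1).map (Int.castRingHom ℂ) |>.eval p.2)
        (atTop ×ˢ 𝓝[Metric.ball (0 : ℂ) 1] x) (𝓝 (x * (∏' i : ℕ, (1 - x ^ (i + 1))) ^ 24)) := by
      have h5 := ((tendsto_snd (f := (atTop : Filter ℕ))
        (g := 𝓝[Metric.ball (0 : ℂ) 1] x)).mono_right nhdsWithin_le_nhds).mul (h2.pow 24)
      refine h5.congr fun p => ?_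
      simp [discPartial, Polynomial.eval_prod, Polynomial.map_prod]
    have h4 : Tendsto (fun p : ℕ × ℂ => p.2 * (∏' i : ℕ, (1 - p.2 ^ (i + 1))) ^ 24)
        (atTop ×ˢ 𝓝[Metric.ball (0 : ℂ) 1] x) (𝓝 (x * (∏' i : ℕ, (1 - x ^ (i + 1))) ^ 24)) :=
      ((continuousOn_id.mul (hc.pow 24)) x hx).tendsto.comp tendsto_snd
    exact tendsto_uniformity_of_tendsto_prod h3 h4
  have h2 := tendsto_taylorCoeff (fun N => Polynomial.differentiable _) h1 m
  simp only [taylorCoeff_polynomial, Polynomial.coeff_map] at h2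
  have h3 : Tendsto (fun N => (Int.castRingHom ℂ) ((discPartial N).coeff m)) atTop
      (𝓝 ((Int.castRingHom ℂ)
        (PowerSeries.coeff m (PowerSeries.X * ModularCurve.dedekindEtaUnit)))) :=
    tendsto_const_nhds.congr' ((tendsto_coe_discPartial m).mono fun N hN => by simp only [hN])
  rw [PowerSeries.coeff_map, tendsto_nhds_unique h3 h2, qExpansion_coeff, taylorCoeff,
    (Filter.EventuallyEq.iteratedDeriv_eq m cuspFunction_discriminant_eventuallyEq)]
where
  tendsto_uniformity_of_tendsto_prod {α : Type} {l : Filter α} {u v : α → ℂ} {a : ℂ}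
      (hu : Tendsto u l (𝓝 a)) (hv : Tendsto v l (𝓝 a)) :
      Tendsto (fun p => (v p, u p)) l (uniformity ℂ) :=
    ((hv.prodMk_nhds hu).mono_right (nhds_le_uniformity a))
  tendsto_prod_filter_of_locallyUniform {f : ℕ → ℂ → ℂ} {g : ℂ → ℂ} {s : Set ℂ} {x : ℂ}
      (h : HasProdLocallyUniformlyOn f g s)
      (hg : ContinuousOn (fun q => ∏' i, f i q) s) (hx : x ∈ s) :
      Tendsto (fun p : ℕ × ℂ => ∏ i ∈ Finset.range p.1, f i p.2) (atTop ×ˢ 𝓝[s] x)
        (𝓝 (∏' i, f i x)) := by
    have hfg : Set.EqOn (fun q => ∏' i, f i q) g s := fun q hq => h.tprod_eqOn hq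
    have h' : TendstoLocallyUniformlyOn (fun N q => ∏ i ∈ Finset.range N, f i q)
        (fun q => ∏' i, f i q) atTop s :=
      (h.tendstoLocallyUniformlyOn_finsetRange).congr_right fun q hq => (hfg hq).symm
    obtain hu := (tendstoLocallyUniformlyOn_iff_forall_tendsto.mp h') x hx
    have hv : Tendsto (fun p : ℕ × ℂ => ∏' i, f i p.2) (atTop ×ˢ 𝓝[s] x) (𝓝 (∏' i, f i x)) :=
      ((hg x hx).tendsto).comp tendsto_snd
    exact Filter.Tendsto.congr_uniformity hv hu

theorem qExpansion_E₄ :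
    qExpansion 1 E₄ = ModularCurve.eisenstein4.map (Int.castRingHom ℂ) := by
  ext m
  rw [E_qExpansion_coeff (k := 4) _ ⟨2, rfl⟩, PowerSeries.coeff_map, ModularCurve.eisenstein4,
    PowerSeries.coeff_mk]
  split_ifs with hm
  · simp
  · rw [show (bernoulli 4 : ℚ) = -1/30 by
      norm_num [bernoulli_eq_bernoulli'_of_ne_one, bernoulli'_four]]
    norm_num [ArithmeticFunction.sigma_apply]

/-! ### The `j`-function -/

theorem discriminant_smul (γ : SL(2, ℤ)) (τ : ℍ) :
    ModularForm.discriminant (γ • τ) = denom γ τ ^ (12 : ℤ) * ModularForm.discriminant τ :=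
  SlashInvariantForm.slash_action_eqn'' CuspForm.discriminant (Γ := 𝒮ℒ) ⟨γ, rfl⟩ τ

/-- Klein's `j`-function. -/
def jH (τ : ℍ) : ℂ := E₄ τ ^ 3 / ModularForm.discriminant τ

theorem jH_mul_discriminant (τ : ℍ) : jH τ * ModularForm.discriminant τ = E₄ τ ^ 3 :=
  div_mul_cancel₀ _ (ModularForm.discriminant_ne_zero τ)

theorem jH_smul (γ : SL(2, ℤ)) (τ : ℍ) : jH (γ • τ) = jH τ := by
  have h4 : E₄ (γ • τ) = denom γ τ ^ (4 : ℤ) * E₄ τ :=
    SlashInvariantForm.slash_action_eqn'' E₄ (Γ := 𝒮ℒ) ⟨γ, rfl⟩ τ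
  have hd := denom_ne_zero γ τ
  rw [jH, jH, h4, discriminant_smul]
  simp only [zpow_ofNat, mul_pow, ← pow_mul]
  rw [mul_div_mul_left _ _ (pow_ne_zero _ hd)]

theorem mdifferentiable_jH : MDiff jH := by
  rw [UpperHalfPlane.mdifferentiable_iff]
  exact (((UpperHalfPlane.mdifferentiable_iff.mp E₄.holo')).pow 3).div
    (UpperHalfPlane.mdifferentiable_iff.mp mdifferentiable_discriminant)
    fun z _ => ModularForm.discriminant_ne_zero _

theorem perH_one_jH : PerH 1 jH := by
  intro τ
  rw [Nat.cast_one, ← modular_T_smul, jH_smul]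

theorem E₄_mem_BddAlg : (E₄ : ℍ → ℂ) ∈ BddAlg 1 := by
  refine ⟨E₄.holo', fun τ => ?_, ModularFormClass.bdd_at_infty E₄⟩
  simpa using SlashInvariantForm.vAdd_apply_of_mem_strictPeriods E₄ τ one_mem_strictPeriods_SL

theorem meroAtInfty_jH : MeroAtInfty jH := by
  refine ⟨1, ?_⟩
  have h1 : ModularForm.discriminant ^ 1 * jH = (E₄ : ℍ → ℂ) ^ 3 := by
    funext τ
    rw [pow_one, Pi.mul_apply, Pi.pow_apply, mul_comm, jH_mul_discriminant]
  rw [h1]
  exact isBounded_pow E₄_mem_BddAlg.2.2 3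

theorem jH_mem_CuspAlg (h : ℕ) : jH ∈ CuspAlg h :=
  ⟨mdifferentiable_jH, perH_one_jH.of_one h, meroAtInfty_jH⟩

/-- `j` as an element of `CuspAlg h`. -/
def jC (h : ℕ) : CuspAlg h := ⟨jH, jH_mem_CuspAlg h⟩

theorem laurentExp_jC : laurentExp 1 (jC 1) = ModularCurve.jqModC ℂ := by
  have hE : qExpBdd 1 ⟨E₄, E₄_mem_BddAlg⟩ = ModularCurve.eisenstein4.map (Int.castRingHom ℂ) := by
    rw [qExpBdd_apply, Nat.cast_one, qExpansion_E₄]
  have hD : qExpBdd 1 (discBdd 1)
      = (PowerSeries.X * ModularCurve.dedekindEtaUnit).map (Int.castRingHom ℂ) := by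
    rw [qExpBdd_apply, Nat.cast_one]; exact qExpansion_discriminant
  have h1 : jC 1 * Subalgebra.inclusion (BddAlg_le_CuspAlg 1) (discBdd 1)
      = Subalgebra.inclusion (BddAlg_le_CuspAlg 1) (⟨E₄, E₄_mem_BddAlg⟩ ^ 3) :=
    Subtype.ext (funext fun τ => jH_mul_discriminant τ)
  have h2 := congrArg (laurentExp 1) h1
  rw [map_mul, laurentExp_of_bdd, laurentExp_of_bdd, map_pow (qExpBdd 1), hE, hD] at h2
  have h3 : ModularCurve.jqModC ℂ * HahnSeries.ofPowerSeries ℤ ℂ
      ((PowerSeries.X * ModularCurve.dedekindEtaUnit).map (Int.castRingHom ℂ))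
      = HahnSeries.ofPowerSeries ℤ ℂ (ModularCurve.eisenstein4.map (Int.castRingHom ℂ) ^ 3) := by
    rw [ModularCurve.jqModC, ModularCurve.jNum, map_mul, map_mul, map_pow, map_mul,
      PowerSeries.map_X, map_mul, HahnSeries.ofPowerSeries_X, map_pow]
    have h4 : HahnSeries.ofPowerSeries ℤ ℂ
        (ModularCurve.dedekindEtaUnitInv.map (Int.castRingHom ℂ))
        * HahnSeries.ofPowerSeries ℤ ℂ
          (ModularCurve.dedekindEtaUnit.map (Int.castRingHom ℂ)) = 1 := by
      rw [← map_mul, ← map_mul, mul_comm, ModularCurve.dedekindEtaUnit_mul_inv, map_one, map_one]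
    have h5 : (HahnSeries.single (-1 : ℤ) (1 : ℂ)) * HahnSeries.single (1 : ℤ) 1 = 1 := by
      rw [HahnSeries.single_mul_single]; simp
    calc _ = HahnSeries.ofPowerSeries ℤ ℂ
          (ModularCurve.eisenstein4.map (Int.castRingHom ℂ)) ^ 3
          * (HahnSeries.single (-1 : ℤ) (1 : ℂ) * HahnSeries.single (1 : ℤ) 1)
          * (HahnSeries.ofPowerSeries ℤ ℂ
              (ModularCurve.dedekindEtaUnitInv.map (Int.castRingHom ℂ))
            * HahnSeries.ofPowerSeries ℤ ℂ
              (ModularCurve.dedekindEtaUnit.map (Int.castRingHom ℂ))) := by ring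
      _ = _ := by rw [h4, h5, mul_one, mul_one]
  refine mul_right_cancel₀ ?_ (h2.trans h3.symm)
  rw [← hD]
  exact discSeries_ne_zero 1

/-! ### Polynomials in `j` -/

section Poly

variable {K : Type*} [CommRing K] [Nontrivial K]

omit [Nontrivial K] in
theorem coeff_aeval_jqModC_neg_natDegree (P : Polynomial K) :
    (Polynomial.eval₂ HahnSeries.C (ModularCurve.jqModC K) P).coeff (-(P.natDegree : ℤ))
      = P.leadingCoeff := by
  rw [Polynomial.eval₂_eq_sum_range, HahnSeries.coeff_sum,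
    Finset.sum_eq_single P.natDegree]
  · simp only [HahnSeries.C_apply, HahnSeries.coeff_single_mul, sub_zero,
      ModularCurve.coeff_jqModC_pow_self, mul_one]
    rfl
  · intro i hi hne
    have hlt : i < P.natDegree := by
      have := Finset.mem_range.mp hi
      omega
    simp only [HahnSeries.C_apply, HahnSeries.coeff_single_mul, sub_zero]
    rw [ModularCurve.coeff_jqModC_pow_of_lt K (by omega), mul_zero]
  · intro h
    simp at h

omit [Nontrivial K] in
theorem eval₂_jqModC_injective :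
    Function.Injective (Polynomial.eval₂RingHom HahnSeries.C (ModularCurve.jqModC K)) := by
  refine (injective_iff_map_eq_zero _).mpr fun P hP => ?_
  have := coeff_aeval_jqModC_neg_natDegree P
  rw [show Polynomial.eval₂ HahnSeries.C (ModularCurve.jqModC K) P = 0 from hP] at this
  simpa [eq_comm (a := (0 : K))] using this

end Poly

theorem algebraMap_laurent_eq_C {K : Type*} [Field K] :
    (algebraMap K (LaurentSeries K)) = HahnSeries.C := by
  refine RingHom.ext fun c => ?_
  rw [HahnSeries.algebraMap_apply']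
  simp [HahnSeries.ofPowerSeries_C]

/-- The algebra of level one: polynomials in `j`. -/
def jPoly (P : Polynomial ℂ) : CuspAlg 1 := Polynomial.aeval (jC 1) P

theorem laurentExp_jPoly (P : Polynomial ℂ) :
    laurentExp 1 (jPoly P) = Polynomial.aeval (ModularCurve.jqModC ℂ) P := by
  rw [jPoly, ← Polynomial.aeval_algHom_apply, laurentExp_jC]

theorem eq_const_of_bounded {f : ℍ → ℂ} (hf : MDiff f) (hinv : ∀ (γ : SL(2, ℤ)) τ, f (γ • τ) = f τ)
    (hb : IsBoundedAtImInfty f) : ∃ c, f = Function.const _ c := by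
  have hsl : ∀ γ : SL(2, ℤ), f ∣[(0 : ℤ)] γ = f := by
    intro γ
    funext τ
    rw [ModularForm.SL_slash_apply, hinv]
    simp
  let F : ModularForm 𝒮ℒ 0 :=
    { toFun := f
      slash_action_eq' := fun A hA => by
        obtain ⟨A, rfl⟩ := hA
        exact hsl A
      holo' := hf
      bdd_at_cusps' := fun hc => by
        rw [Subgroup.IsArithmetic.isCusp_iff_isCusp_SL2Z] at hc
        rw [OnePoint.isBoundedAt_iff_forall_SL2Z hc]
        intro γ _
        rw [hsl]
        exact hb }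
  obtain ⟨c, hc⟩ := ModularFormClass.levelOne_weight_zero_const F
  exact ⟨c, hc⟩

/-- Level one: invariant holomorphic functions meromorphic at infinity are polynomials in `j`. -/
theorem exists_jPoly_eq {f : ℍ → ℂ} (hf : MDiff f)
    (hinv : ∀ (γ : SL(2, ℤ)) τ, f (γ • τ) = f τ) (hm : MeroAtInfty f) :
    ∃ P : Polynomial ℂ, ∀ τ, f τ = P.eval (jH τ) := by
  have hper : PerH 1 f := fun τ => by rw [Nat.cast_one, ← modular_T_smul, hinv]
  suffices H : ∀ (n : ℕ) (g : CuspAlg 1), (∀ (γ : SL(2, ℤ)) τ, (g : ℍ → ℂ) (γ • τ) = (g : ℍ → ℂ) τ)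
      → (∀ k : ℤ, k < -(n : ℤ) → (laurentExp 1 g).coeff k = 0)
      → ∃ P : Polynomial ℂ, ∀ τ, (g : ℍ → ℂ) τ = P.eval (jH τ) by
    obtain ⟨n, c, _, he⟩ := exists_hasSum (⟨f, hf, hper, hm⟩ : CuspAlg 1)
    refine H n ⟨f, hf, hper, hm⟩ hinv fun k hk => ?_
    rw [he, HahnSeries.coeff_single_mul, one_mul]
    exact ModularCurve.ofPowerSeries_coeff_of_neg _ (by omega)
  intro n
  induction n with
  | zero =>
    intro g hg hk
    obtain ⟨c, hc⟩ := eq_const_of_bounded g.2.1 hg (isBounded_of_coeff_neg (by simpa using hk))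
    exact ⟨Polynomial.C c, fun τ => by rw [hc]; simp⟩
  | succ n ih =>
    intro g hg hk
    set a := (laurentExp 1 g).coeff (-((n + 1 : ℕ) : ℤ)) with ha
    obtain ⟨P, hP⟩ := ih (g - algebraMap ℂ _ a * jC 1 ^ (n + 1)) (fun γ τ => by
        simp only [Subalgebra.coe_sub, Subalgebra.coe_mul, SubmonoidClass.coe_pow, jC, Pi.sub_apply,
          Pi.mul_apply, Pi.pow_apply, jH_smul, hg]
        rfl) (fun k hk' => by
        rw [map_sub, map_mul, map_pow, AlgHom.commutes, laurentExp_jC, HahnSeries.coeff_sub,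
          algebraMap_laurent_eq_C, HahnSeries.C_apply, HahnSeries.coeff_single_mul, sub_zero]
        rcases lt_or_eq_of_le (show k ≤ -((n + 1 : ℕ) : ℤ) by omega) with hlt | heq
        · rw [hk k hlt, ModularCurve.coeff_jqModC_pow_of_lt ℂ hlt, mul_zero, sub_zero]
        · rw [heq, ModularCurve.coeff_jqModC_pow_self, mul_one, sub_self])
    refine ⟨P + Polynomial.C a * Polynomial.X ^ (n + 1), fun τ => ?_⟩
    have := hP τ
    simp only [Subalgebra.coe_sub, Subalgebra.coe_mul, SubmonoidClass.coe_pow, jC, Pi.sub_apply,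
      Pi.mul_apply, Pi.pow_apply, Subalgebra.coe_algebraMap, Pi.algebraMap_apply,
      Algebra.algebraMap_self, RingHom.id_apply] at this
    simp only [Polynomial.eval_add, Polynomial.eval_mul, Polynomial.eval_C, Polynomial.eval_pow,
      Polynomial.eval_X]
    linear_combination this

end Fermat.Agent.ModFun
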