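import Fermat.Agent.ModFun.Field

/-!
# The places of the complex function field of `X₀(N)`: points and cusps
-/

set_option autoImplicit false

noncomputable section

open UpperHalfPlane hiding I
open Function Filter Complex CongruenceSubgroup AlgebraicCurve IntermediateField
open scoped Manifold MatrixGroups WithZero Real

namespace Fermat.Agent.ModFun

variable (N : ℕ) [NeZero N]

instance isFunctionField_FC : FF.IsFunctionField ℂ (FC N) := isFunctionField_fullC N ℂ

/-- The place of the function field at `τ ∈ ℍ`. -/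
def placeAt (τ : ℍ) : Place ℂ (FC N) := (uniformisation0 N).pointPlace τ

/-- The place of the function field at the cusp of `c`. -/
def placeCusp (c : Coset N) : Place ℂ (FC N) := (uniformisation0 N).cuspPlace c

variable {N}

theorem mem_placeAt_iff (τ : ℍ) (x : FC N) :
    x ∈ (placeAt N τ).toValuationSubring ↔
      valAt τ (emb N ((1 : SL(2, ℤ)) : Coset N) x) ≤ 1 :=
  (uniformisation0 N).mem_pointPlace τ x

theorem placeAt_smul {g : SL(2, ℤ)} (hg : g ∈ Gamma0 N) (τ : ℍ) :
    placeAt N (g • τ) = placeAt N τ :=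
  (uniformisation0 N).pointPlace_smul hg τ

/-- `ord_τ` is a positive multiple of the order at `placeAt τ`. -/
theorem exists_ordMer_eq_mul (τ : ℍ) : ∃ m : ℤ, 0 < m ∧ ∀ x : FC N, x ≠ 0 →
    ordMer τ (emb N ((1 : SL(2, ℤ)) : Coset N) x) = m * (placeAt N τ).ord x :=
  (uniformisation0 N).exists_ordMer_eq τ

theorem ord_jF_sub_placeAt_pos (τ : ℍ) :
    0 < (placeAt N τ).ord (jF N - algebraMap ℂ (FC N) (jH τ)) :=
  (uniformisation0 N).ord_j_sub_pointPlace_pos τ

/-- A place where `j` has no pole is a `placeAt`. -/
theorem exists_eq_placeAt {v : Place ℂ (FC N)} (hv : jF N ∈ v.toValuationSubring) :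
    ∃ τ : ℍ, v = placeAt N τ :=
  (uniformisation0 N).exists_eq_pointPlace hv

theorem cuspEmb_T_smul (c : Coset N) (x : FC N) :
    cuspEmb N (ModularGroup.T • c) x = twist (rootInv N) (cuspEmb N c x) :=
  (uniformisation0 N).cuspEmb_T_smul c x

/-- Every place is a `placeAt` or a `placeCusp`. -/
theorem exists_eq_placeAt_or_placeCusp (v : Place ℂ (FC N)) :
    (∃ τ : ℍ, v = placeAt N τ) ∨ ∃ c : Coset N, v = placeCusp N c :=
  (uniformisation0 N).exists_eq_place v

/-- `cuspEmb c` computes the order at `placeCusp c` up to a positive factor. -/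
theorem exists_order_eq_mul (c : Coset N) : ∃ m : ℤ, 0 < m ∧
    (m * MulAction.period ModularGroup.T c = N) ∧ ∀ x : FC N, x ≠ 0 →
      (cuspEmb N c x).order = m * (placeCusp N c).ord x :=
  (uniformisation0 N).exists_order_eq c

end Fermat.Agent.ModFun
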