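import Fermat.Agent.ModFun.CuspSeries
import Mathlib.FieldTheory.PrimitiveElement

/-!
# Function fields uniformised by the upper half plane

`Uniformisation N Γ F` says that `F` is the field of quotients of the holomorphic `Γ`-invariant
functions on `ℍ` meromorphic at the cusps and that these separate the cosets of `Γ`, where
`Γ(N) ≤ Γ`.  From this the degree over the `j`-line, the places at points and cusps, and the
ramification of `j` follow.
-/

set_option autoImplicit false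
set_option linter.unusedSectionVars false

noncomputable section

open UpperHalfPlane hiding I
open Function Filter Complex CongruenceSubgroup AlgebraicCurve Polynomial
open scoped Manifold MatrixGroups Real Topology WithZero IntermediateField

namespace Fermat.Agent.ModFun

/-- The permutation of the cosets induced by left multiplication. -/
def cosetPerm {Γ : Subgroup SL(2, ℤ)} (g : SL(2, ℤ)) : Equiv.Perm (SL(2, ℤ) ⧸ Γ) :=
  MulAction.toPerm g

theorem mem_orbit_cosetPerm {Γ : Subgroup SL(2, ℤ)} {g : SL(2, ℤ)} {c c' : SL(2, ℤ) ⧸ Γ}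
    (h : c ∈ MulAction.orbit (Subgroup.zpowers (cosetPerm (Γ := Γ) g)) c') :
    ∃ k : ℤ, g ^ k • c' = c := by
  obtain ⟨⟨p, hp⟩, rfl⟩ := h
  obtain ⟨k, hk⟩ := Subgroup.mem_zpowers_iff.mp hp
  refine ⟨k, ?_⟩
  show (g ^ k) • c' = p c'
  rw [← hk, cosetPerm, ← MulAction.toPermHom_apply, ← map_zpow]
  rfl

/-- `F` is the field of the functions of `Γ` on `ℍ` of width `N`. -/
structure Uniformisation (N : ℕ) (Γ : Subgroup SL(2, ℤ))
    [Fact (CongruenceSubgroup.Gamma N ≤ Γ)] (F : Type) [Field F] [Algebra ℂ F] where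
  neg_one_mem : (-1 : SL(2, ℤ)) ∈ Γ
  /-- The regular functions in the field. -/
  toField : invHol Γ →ₐ[ℂ] F
  toField_injective : Function.Injective toField
  exists_div : ∀ x : F, ∃ a b : invHol Γ, b ≠ 0 ∧ x = toField a / toField b
  separates : ∀ c c' : SL(2, ℤ) ⧸ Γ, (∀ a : invHol Γ, tr N c a = tr N c' a) → c = c'

namespace Uniformisation

variable {N : ℕ} [NeZero N] {Γ : Subgroup SL(2, ℤ)} [Fact (CongruenceSubgroup.Gamma N ≤ Γ)]
  {F : Type} [Field F] [Algebra ℂ F] (U : Uniformisation N Γ F)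

/-- The extension to `F` of an injective map on the regular functions. -/
def lift {L : Type*} [Field L] [Algebra ℂ L] (g : invHol Γ →ₐ[ℂ] L) (hg : Function.Injective g) :
    F →ₐ[ℂ] L :=
  letI : Algebra (invHol Γ) F := U.toField.toRingHom.toAlgebra
  haveI : IsScalarTower ℂ (invHol Γ) F :=
    IsScalarTower.of_algebraMap_eq fun c => (U.toField.commutes c).symm
  haveI : FaithfulSMul (invHol Γ) F :=
    (faithfulSMul_iff_algebraMap_injective _ _).mpr U.toField_injective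
  haveI : IsFractionRing (invHol Γ) F := IsFractionRing.of_field _ _ fun x => by
    obtain ⟨a, b, -, h⟩ := U.exists_div x
    exact ⟨a, b, h⟩
  IsFractionRing.liftAlgHom (A := invHol Γ) (g := g) hg

theorem lift_toField {L : Type*} [Field L] [Algebra ℂ L] (g : invHol Γ →ₐ[ℂ] L)
    (hg : Function.Injective g) (a : invHol Γ) : U.lift g hg (U.toField a) = g a :=
  letI : Algebra (invHol Γ) F := U.toField.toRingHom.toAlgebra
  haveI : FaithfulSMul (invHol Γ) F :=
    (faithfulSMul_iff_algebraMap_injective _ _).mpr U.toField_injective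
  haveI : IsFractionRing (invHol Γ) F := IsFractionRing.of_field _ _ fun x => by
    obtain ⟨a, b, -, h⟩ := U.exists_div x
    exact ⟨a, b, h⟩
  IsFractionRing.lift_algebraMap hg a

/-- The embedding `x ↦ x (c⁻¹ τ)` into meromorphic functions. -/
def emb (c : SL(2, ℤ) ⧸ Γ) : F →ₐ[ℂ] MerH :=
  U.lift ((toMerH N).comp (tr N c)) fun _ _ h => tr_injective c (toMerH_injective N h)

theorem emb_toField (c : SL(2, ℤ) ⧸ Γ) (a : invHol Γ) :
    U.emb c (U.toField a) = toMerH N (tr N c a) :=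
  U.lift_toField _ _ a

/-- The expansion in `exp (2πiτ/N)` of `x (c⁻¹ τ)`. -/
def cuspEmb (c : SL(2, ℤ) ⧸ Γ) : F →ₐ[ℂ] LaurentSeries ℂ :=
  U.lift ((laurentExp N).comp (tr N c)) fun _ _ h => tr_injective c (laurentExp_injective N h)

theorem cuspEmb_toField (c : SL(2, ℤ) ⧸ Γ) (a : invHol Γ) :
    U.cuspEmb c (U.toField a) = laurentExp N (tr N c a) :=
  U.lift_toField _ _ a

/-- Elements of the function field as meromorphic functions on `ℍ`. -/
abbrev e : F →ₐ[ℂ] MerH := U.emb ((1 : SL(2, ℤ)) : SL(2, ℤ) ⧸ Γ)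

/-- The modular invariant. -/
def j : F := U.toField jInv

theorem emb_j (c : SL(2, ℤ) ⧸ Γ) : U.emb c U.j = toMerH N (jC N) := by
  rw [j, emb_toField, tr_jInv]

theorem cuspEmb_j (c : SL(2, ℤ) ⧸ Γ) : U.cuspEmb c U.j = laurentExp N (jC N) := by
  rw [j, cuspEmb_toField, tr_jInv]

theorem toField_evJ (P : ℂ[X]) : U.toField (evJ P) = aeval U.j P := by
  rw [evJ, ← Polynomial.aeval_algHom_apply]; rfl

theorem transcendental_j : Transcendental ℂ U.j := by
  rintro ⟨P, hP, h0⟩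
  refine hP (evJ_injective N (Γ := Γ) (U.toField_injective ?_))
  rw [U.toField_evJ, h0, map_zero, map_zero]

theorem j_sub_ne_zero (a : ℂ) : U.j - algebraMap ℂ F a ≠ 0 := fun h =>
  U.transcendental_j (by rw [sub_eq_zero.mp h]; exact isAlgebraic_algebraMap a)

theorem j_ne_zero : U.j ≠ 0 := fun h => U.transcendental_j (h ▸ isAlgebraic_zero)

theorem emb_injective : Function.Injective U.emb := fun c c' h =>
  U.separates c c' fun a => toMerH_injective N (by
    rw [← U.emb_toField, ← U.emb_toField, h])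

theorem cuspEmb_injective : Function.Injective U.cuspEmb := fun c c' h =>
  U.separates c c' fun a => laurentExp_injective N (by
    rw [← U.cuspEmb_toField, ← U.cuspEmb_toField, h])

theorem emb_smul (g : SL(2, ℤ)) (c : SL(2, ℤ) ⧸ Γ) (x : F) :
    actMer g (U.emb c x) = U.emb (g⁻¹ • c) x := by
  obtain ⟨a, b, -, rfl⟩ := U.exists_div x
  have key : ∀ f : invHol Γ,
      actMer g (toMerH N (tr N c f)) = toMerH N (tr N (g⁻¹ • c) f) := fun f => by
    rw [toMerH_apply, actMer_algebraMap, toMerH_apply]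
    congr 1
    exact Subtype.ext (funext fun τ => tr_smul_eq (N := N) g c f τ)
  simp only [map_div₀, U.emb_toField, key]

theorem cuspEmb_T_smul (c : SL(2, ℤ) ⧸ Γ) (x : F) :
    U.cuspEmb (ModularGroup.T • c) x = twist (rootInv N) (U.cuspEmb c x) := by
  obtain ⟨a, b, -, rfl⟩ := U.exists_div x
  have key : ∀ f : invHol Γ, laurentExp N (tr N (ModularGroup.T • c) f)
      = twist (rootInv N) (laurentExp N (tr N c f)) := fun f => by
    refine laurentExp_shift _ _ fun τ => ?_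
    have h := tr_smul_eq (N := N) (ModularGroup.T⁻¹) c f τ
    rw [inv_inv, show ModularGroup.T⁻¹ = ModularGroup.T ^ (-1 : ℤ) from (zpow_neg_one _).symm,
      modular_T_zpow_smul] at h
    exact h.symm
  simp only [map_div₀, U.cuspEmb_toField, key]

theorem emb_eq_on_adjoin (c c' : SL(2, ℤ) ⧸ Γ) (x : ℂ⟮U.j⟯) :
    U.emb c (x : F) = U.emb c' (x : F) := by
  obtain ⟨r, t, hrt⟩ := (IntermediateField.mem_adjoin_simple_iff ℂ _).mp x.2
  rw [hrt, map_div₀, map_div₀, ← Polynomial.aeval_algHom_apply, ← Polynomial.aeval_algHom_apply,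
    ← Polynomial.aeval_algHom_apply, ← Polynomial.aeval_algHom_apply, U.emb_j, U.emb_j]

theorem exists_mul_eq_evJ (N : ℕ) [NeZero N] [Fact (CongruenceSubgroup.Gamma N ≤ Γ)]
    [Finite (SL(2, ℤ) ⧸ Γ)] {b : invHol Γ} (hb : b ≠ 0) :
    ∃ (b' : invHol Γ) (P : ℂ[X]), P ≠ 0 ∧ b * b' = evJ P := by
  obtain ⟨Q, -, -, hQ, h0⟩ := exists_charPoly N b
  refine ⟨-((Q.divX).eval₂ (evJ (Γ := Γ)).toRingHom b), Q.coeff 0, fun h => ?_, ?_⟩
  · have h1 := congrArg (fun p => Polynomial.coeff p 0) hQ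
    simp only [Polynomial.coeff_map, h, map_zero, trPoly, Polynomial.coeff_zero_prod] at h1
    obtain ⟨c, -, hc⟩ := Finset.prod_eq_zero_iff.mp h1.symm
    exact hb (tr_injective (N := N) c ((by simpa using hc : tr N c b = 0).trans (map_zero _).symm))
  · have h1 := congrArg (fun p => Polynomial.eval₂ (evJ (Γ := Γ)).toRingHom b p)
      (Polynomial.X_mul_divX_add Q)
    simp only [Polynomial.eval₂_add, Polynomial.eval₂_mul, Polynomial.eval₂_X, Polynomial.eval₂_C,
      h0] at h1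
    have h2 : (evJ (Γ := Γ)).toRingHom (Q.coeff 0) = evJ (Q.coeff 0) := rfl
    rw [h2] at h1
    linear_combination -h1

variable [Γ.FiniteIndex] [FF.IsFunctionField ℂ F]

/-- The degree over `ℂ(j)`. -/
theorem finrank_j : Module.finrank ℂ⟮U.j⟯ F = Nat.card (SL(2, ℤ) ⧸ Γ) := by
  classical
  have := FF.finiteDimensional_adjoin U.transcendental_j
  set L := ℂ⟮U.j⟯ with hL
  refine le_antisymm ?_ ?_
  · have : CharZero L := charZero_of_injective_algebraMap (algebraMap ℂ L).injective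
    have : Algebra.IsIntegral L F := Algebra.IsIntegral.of_finite L F
    have : Algebra.IsSeparable L F := Algebra.IsSeparable.of_integral L F
    obtain ⟨θ, hθ⟩ := Field.exists_primitive_element L F
    obtain ⟨a, b, hb, hab⟩ := U.exists_div θ
    obtain ⟨b', P, hP, hbb⟩ := exists_mul_eq_evJ N hb
    set g := a * b'
    have hPj : U.toField (evJ P) ∈ L := by
      rw [U.toField_evJ]
      exact (IntermediateField.mem_adjoin_simple_iff ℂ _).mpr ⟨P, 1, by rw [map_one, div_one]⟩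
    have hb'0 : U.toField b' ≠ 0 := by
      refine (map_ne_zero_iff _ U.toField_injective).mpr fun h => hP ?_
      refine transcendental_iff.mp U.transcendental_j P ?_
      rw [← U.toField_evJ, ← hbb, h, mul_zero, map_zero]
    have hθ' : θ = U.toField g / U.toField (evJ P) := by
      rw [hab, ← hbb, map_mul, map_mul, mul_div_mul_right _ _ hb'0]
    have hg : L⟮U.toField g⟯ = ⊤ := by
      refine top_le_iff.mp (hθ ▸ IntermediateField.adjoin_le_iff.mpr ?_)
      rw [Set.singleton_subset_iff, SetLike.mem_coe, hθ']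
      exact div_mem (IntermediateField.mem_adjoin_simple_self L _)
        (L⟮U.toField g⟯.algebraMap_mem ⟨_, hPj⟩)
    obtain ⟨Q, hQm, hQd, -, hQ⟩ := exists_charPoly N g
    let ι : ℂ[X] →+* L :=
      (Polynomial.aeval (R := ℂ) (⟨U.j, IntermediateField.mem_adjoin_simple_self ℂ _⟩ : L)).toRingHom
    have hι : (algebraMap L F).comp ι = U.toField.toRingHom.comp (evJ (Γ := Γ)).toRingHom := by
      refine RingHom.ext fun P => ?_
      show _ = U.toField (evJ P)
      rw [U.toField_evJ]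
      exact (Polynomial.aeval_algHom_apply (IsScalarTower.toAlgHom ℂ L F) _ P).symm
    have hroot : Polynomial.aeval (U.toField g) (Q.map ι) = 0 := by
      rw [Polynomial.aeval_def, Polynomial.eval₂_map, hι]
      refine (Polynomial.hom_eval₂ Q (evJ (Γ := Γ)).toRingHom U.toField.toRingHom g).symm.trans ?_
      rw [hQ, map_zero]
    have hint : IsIntegral L (U.toField g) := ⟨Q.map ι, hQm.map ι, hroot⟩
    rw [← IntermediateField.finrank_top', ← hg, IntermediateField.adjoin.finrank hint]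
    refine (Polynomial.natDegree_le_of_dvd (minpoly.dvd L _ hroot) (hQm.map ι).ne_zero).trans ?_
    exact Polynomial.natDegree_map_le.trans hQd.le
  · let : Algebra L MerH := (U.e.toRingHom.comp (algebraMap L F)).toAlgebra
    let ψ : SL(2, ℤ) ⧸ Γ → (F →ₐ[L] MerH) := fun c =>
      { (U.emb c).toRingHom with commutes' := fun x => U.emb_eq_on_adjoin c _ x }
    have hψ : Function.Injective ψ := fun a b h =>
      U.emb_injective (AlgHom.ext fun x => DFunLike.congr_fun h x)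
    have : Finite (F →ₐ[L] MerH) := Finite.of_fintype _
    have : Module.Free L F := Module.Free.of_divisionRing L F
    exact (Nat.card_le_card_of_injective ψ hψ).trans (card_algHom_le_finrank L F MerH)

/-! ### The places -/

theorem one_lt_valAt_inv_j_sub (τ : ℍ) :
    1 < valAt τ (U.e ((U.j - algebraMap ℂ F (jH τ))⁻¹)) := by
  rw [map_inv₀, map_inv₀, map_sub, U.emb_j, AlgHom.commutes, toMerH_jC_sub, valAt_algebraMap]
  have hv := valHol_apply (τ := τ) (jSubHol_ne_zero (jH τ))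
  rw [one_lt_inv₀ (zero_lt_iff.mpr (by rw [hv]; exact WithZero.exp_ne_zero)), hv,
    ← WithZero.exp_zero, WithZero.exp_lt_exp]
  have h2 : 0 < ordHol τ (jSubHol (jH τ)) :=
    (ordHol_pos_iff (jSubHol_ne_zero _) τ).mpr (sub_self _)
  omega

/-- The place at `τ ∈ ℍ`. -/
def pointPlace (τ : ℍ) : Place ℂ F :=
  placeOfEmb (valAt τ) (fun _ hc => valAt_constant hc τ) U.e (U.one_lt_valAt_inv_j_sub τ)

theorem mem_pointPlace (τ : ℍ) (x : F) :
    x ∈ (U.pointPlace τ).toValuationSubring ↔ valAt τ (U.e x) ≤ 1 :=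
  mem_placeOfEmb _ _ _ _ x

theorem mem_pointPlace_inv_smul (g : SL(2, ℤ)) (τ : ℍ) (x : F) :
    x ∈ (U.pointPlace (g⁻¹ • τ)).toValuationSubring ↔
      valAt τ (U.emb (g : SL(2, ℤ) ⧸ Γ) x) ≤ 1 := by
  rw [U.mem_pointPlace, ← valAt_actMer, U.emb_smul, inv_inv, MulAction.Quotient.smul_coe,
    smul_eq_mul, mul_one]

theorem pointPlace_smul {g : SL(2, ℤ)} (hg : g ∈ Γ) (τ : ℍ) :
    U.pointPlace (g • τ) = U.pointPlace τ := by
  apply Place.ext
  ext x
  have h1 := U.mem_pointPlace_inv_smul g⁻¹ τ x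
  rw [inv_inv] at h1
  rw [h1, show ((g⁻¹ : SL(2, ℤ)) : SL(2, ℤ) ⧸ Γ) = ((1 : SL(2, ℤ)) : SL(2, ℤ) ⧸ Γ) from
    QuotientGroup.eq.mpr (by simpa using hg), U.mem_pointPlace]

/-- `ord_τ` is a positive multiple of the order at `pointPlace τ`. -/
theorem exists_ordMer_eq (τ : ℍ) : ∃ μ : ℤ, 0 < μ ∧ ∀ x : F, x ≠ 0 →
    ordMer τ (U.e x) = μ * (U.pointPlace τ).ord x :=
  exists_pos_mul_of_mem_iff (U.pointPlace τ) (valAt τ) U.e (U.mem_pointPlace τ)

theorem pointPlace_inv_out_smul (g : SL(2, ℤ)) (τ : ℍ) :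
    U.pointPlace ((g : SL(2, ℤ) ⧸ Γ).out⁻¹ • τ) = U.pointPlace (g⁻¹ • τ) := by
  obtain ⟨h, hh⟩ := QuotientGroup.mk_out_eq_mul Γ g
  rw [hh, mul_inv_rev, mul_smul, U.pointPlace_smul (inv_mem h.2)]

open scoped Classical in
/-- Places over `j = j τ₀`, labelled by the cosets, with the rotation at `τ₀`. -/
theorem places_over_point (τ₀ : ℍ) : ∃ (s : SL(2, ℤ)) (e : ℕ), s • τ₀ = τ₀ ∧
    ordHol τ₀ (jSubHol (jH τ₀)) = e ∧
    (∀ k : ℤ, (denom s τ₀ ^ 2) ^ k = 1 → (e : ℤ) ∣ k) ∧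
    (∀ v : Place ℂ F, 0 < v.ord (U.j - algebraMap ℂ F (jH τ₀)) ↔
      ∃ c : SL(2, ℤ) ⧸ Γ, v = U.pointPlace (c.out⁻¹ • τ₀)) ∧
    ∀ c : SL(2, ℤ) ⧸ Γ, (U.pointPlace (c.out⁻¹ • τ₀)).ord (U.j - algebraMap ℂ F (jH τ₀))
      = Function.minimalPeriod (fun d : SL(2, ℤ) ⧸ Γ => s • d) c := by
  obtain ⟨s, e, hs, he, hord, hprim⟩ := exists_stab τ₀
  let _ : Fintype (SL(2, ℤ) ⧸ Γ) := Fintype.ofFinite _
  have hs' : s⁻¹ • τ₀ = τ₀ := by rw [inv_smul_eq_iff, hs]
  have hprim' : ∀ k : ℤ, (denom (s⁻¹ : SL(2, ℤ)) τ₀ ^ 2) ^ k = 1 → (e : ℤ) ∣ k := by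
    intro k hk
    apply hprim
    have h1 := denom_mul_apply s⁻¹ s τ₀
    rw [inv_mul_cancel, hs] at h1
    have h2 : denom s τ₀ = (denom (s⁻¹ : SL(2, ℤ)) τ₀)⁻¹ := by
      refine eq_inv_of_mul_eq_one_left ?_
      rw [mul_comm, ← h1]
      simp
    rw [h2, inv_pow, inv_zpow, hk, inv_one]
  have h := places_iff_orbits U.j (jH τ₀) U.transcendental_j (valAt τ₀)
    (fun _ hc => valAt_constant hc τ₀) U.emb U.emb_injective
    (by rw [← Nat.card_eq_fintype_card]; exact U.finrank_j.symm)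
    (toMerH N (jC N)) U.emb_j e he
    (by
      rw [toMerH_jC_sub]
      show ordMer τ₀ _ = _
      rw [ordMer_algebraMap (jSubHol_ne_zero _), hord])
    (cosetPerm s) (actMer s⁻¹).toAlgHom.toRingHom
    (fun c x => by
      show U.emb (s • c) x = actMer s⁻¹ (U.emb c x)
      rw [U.emb_smul, inv_inv])
    (fun g => by
      show valAt τ₀ (actMer s⁻¹ g) = _
      rw [valAt_actMer, hs'])
    (fun n g hg hfix => Genus.ordMer_dvd hs' e hprim' n g hg hfix)
    (fun c : SL(2, ℤ) ⧸ Γ => U.pointPlace (c.out⁻¹ • τ₀))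
    (fun c x => by rw [U.mem_pointPlace_inv_smul, QuotientGroup.out_eq'])
  exact ⟨s, e, hs, hord, hprim, h.1, h.2.2⟩

theorem ord_j_sub_pointPlace_pos (τ : ℍ) :
    0 < (U.pointPlace τ).ord (U.j - algebraMap ℂ F (jH τ)) := by
  obtain ⟨s, e, -, -, -, h1, -⟩ := U.places_over_point τ
  refine (h1 _).mpr ⟨((1 : SL(2, ℤ)) : SL(2, ℤ) ⧸ Γ), ?_⟩
  rw [U.pointPlace_inv_out_smul, inv_one, one_smul]

/-- A place where `j` has no pole is a `pointPlace`. -/
theorem exists_eq_pointPlace {v : Place ℂ F} (hv : U.j ∈ v.toValuationSubring) :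
    ∃ τ : ℍ, v = U.pointPlace τ := by
  obtain ⟨a, ha'⟩ := FF.exists_sub_mem_ordGe_one v hv
  have ha : 0 < v.ord (U.j - algebraMap ℂ F a) := by
    have := FF.le_ord_of_mem_ordGe v (U.j_sub_ne_zero a) ha'
    omega
  obtain ⟨τ₀, hτ₀⟩ := Genus.jH_surjective a
  obtain ⟨s, e, -, -, -, h1, -⟩ := U.places_over_point τ₀
  rw [← genusJ_eq, hτ₀] at h1
  obtain ⟨c, hc⟩ := (h1 v).mp ha
  exact ⟨_, hc⟩

theorem one_lt_valInf_j (c : SL(2, ℤ) ⧸ Γ) : 1 < valInf ℂ (U.cuspEmb c U.j) := by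
  rw [U.cuspEmb_j, valInf_apply order_laurentExp_jC.2, order_laurentExp_jC.1, ← WithZero.exp_zero,
    WithZero.exp_lt_exp]
  have := Nat.pos_of_ne_zero (NeZero.ne N)
  omega

/-- The place at the cusp of `c`. -/
def cuspPlace (c : SL(2, ℤ) ⧸ Γ) : Place ℂ F :=
  placeOfEmb (valInf ℂ) (fun _ hc => valInf_constant hc) (U.cuspEmb c) (U.one_lt_valInf_j c)

theorem mem_cuspPlace (c : SL(2, ℤ) ⧸ Γ) (x : F) :
    x ∈ (U.cuspPlace c).toValuationSubring ↔ valInf ℂ (U.cuspEmb c x) ≤ 1 :=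
  mem_placeOfEmb _ _ _ _ x

open scoped Classical in
/-- The places over `j = ∞`, labelled by the cusps; ramification = width. -/
theorem places_over_infty :
    (∀ v : Place ℂ F, U.j ∉ v.toValuationSubring ↔ ∃ c : SL(2, ℤ) ⧸ Γ, v = U.cuspPlace c) ∧
    ∀ c : SL(2, ℤ) ⧸ Γ, (U.cuspPlace c).ord U.j
      = -(MulAction.period ModularGroup.T c : ℤ) := by
  let _ : Fintype (SL(2, ℤ) ⧸ Γ) := Fintype.ofFinite _
  have ht : Transcendental ℂ U.j⁻¹ := fun h => U.transcendental_j (IsAlgebraic.inv_iff.mp h)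
  have h := places_iff_orbits U.j⁻¹ 0 ht (valInf ℂ) (fun _ hc => valInf_constant hc)
    U.cuspEmb U.cuspEmb_injective
    (by rw [FF.finrank_adjoin_inv, ← Nat.card_eq_fintype_card]; exact U.finrank_j.symm)
    (laurentExp N (jC N))⁻¹ (fun c => by rw [map_inv₀, U.cuspEmb_j]) N (NeZero.ne N)
    (by
      rw [map_zero, sub_zero, Genus.ordL, map_inv₀, WithZero.log_inv,
        valInf_apply order_laurentExp_jC.2, order_laurentExp_jC.1]
      simp)
    (cosetPerm ModularGroup.T) (twist (rootInv N)) (fun c x => U.cuspEmb_T_smul c x)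
    (valInf_twist _)
    (fun n g hg hfix => by rw [ordL_valInf hg]; exact twist_rootInv_fixed hg hfix)
    U.cuspPlace U.mem_cuspPlace
  rw [map_zero, sub_zero] at h
  refine ⟨fun v => ?_, fun c => ?_⟩
  · rw [← h.1 v, v.ord_inv, FF.mem_iff_ord v U.j_ne_zero]
    omega
  · have h1 := h.2.2 c
    rw [(U.cuspPlace c).ord_inv] at h1
    rw [MulAction.period_eq_minimalPeriod]
    have h2 : Function.minimalPeriod (fun d : SL(2, ℤ) ⧸ Γ => ModularGroup.T • d) c
        = Function.minimalPeriod ((cosetPerm (Γ := Γ) ModularGroup.T) • ·) c := rfl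
    rw [h2, ← h1, neg_neg]

/-- Every place is a `pointPlace` or a `cuspPlace`. -/
theorem exists_eq_place (v : Place ℂ F) :
    (∃ τ : ℍ, v = U.pointPlace τ) ∨ ∃ c : SL(2, ℤ) ⧸ Γ, v = U.cuspPlace c := by
  by_cases hv : U.j ∈ v.toValuationSubring
  · exact Or.inl (U.exists_eq_pointPlace hv)
  · exact Or.inr ((U.places_over_infty.1 v).mp hv)

/-- `cuspEmb c` computes the order at `cuspPlace c` up to a positive factor. -/
theorem exists_order_eq (c : SL(2, ℤ) ⧸ Γ) : ∃ μ : ℤ, 0 < μ ∧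
    μ * MulAction.period ModularGroup.T c = N ∧ ∀ x : F, x ≠ 0 →
      (U.cuspEmb c x).order = μ * (U.cuspPlace c).ord x := by
  obtain ⟨m, hm, h⟩ := exists_pos_mul_of_mem_iff (U.cuspPlace c) (valInf ℂ) (U.cuspEmb c)
    (U.mem_cuspPlace c)
  refine ⟨m, hm, ?_, fun x hx => by
    rw [← ordL_valInf ((_root_.map_ne_zero _).mpr hx)]; exact h x hx⟩
  have h1 := h _ U.j_ne_zero
  rw [U.cuspEmb_j, ordL_valInf order_laurentExp_jC.2, order_laurentExp_jC.1,
    U.places_over_infty.2 c] at h1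
  linear_combination h1

theorem order_tr (c : SL(2, ℤ) ⧸ Γ) : ∃ μ : ℤ, 0 < μ ∧
    μ * MulAction.period ModularGroup.T c = N ∧ ∀ a : invHol Γ, U.toField a ≠ 0 →
      (laurentExp N (tr N c a)).order = μ * (U.cuspPlace c).ord (U.toField a) := by
  obtain ⟨μ, hμ, hN, h⟩ := U.exists_order_eq c
  exact ⟨μ, hμ, hN, fun a ha => by rw [← U.cuspEmb_toField, h _ ha]⟩

open scoped Classical in
/-- The ramification index of `j` over a finite `a` divides `3`, `2` or `1`. -/
theorem ord_j_sub_dvd (v : Place ℂ F) (a : ℂ) (h : 0 < v.ord (U.j - algebraMap ℂ F a)) :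
    v.ord (U.j - algebraMap ℂ F a) ∣
      ((if a = 0 then 3 else if a = 1728 then 2 else 1 : ℕ) : ℤ) := by
  obtain ⟨τ₀, hτ₀⟩ := Genus.jH_surjective a
  rw [genusJ_eq] at hτ₀
  subst hτ₀
  obtain ⟨s, e, -, -, -, h1, -⟩ := U.places_over_point τ₀
  obtain ⟨c, rfl⟩ := (h1 v).mp h
  set τ := c.out⁻¹ • τ₀ with hτ
  have hj : jH τ = jH τ₀ := jH_smul _ _
  rw [← hj, ← ordHol_jSubHol_jH τ]
  obtain ⟨m, -, hm⟩ := U.exists_ordMer_eq τ
  have h2 := hm _ (U.j_sub_ne_zero (jH τ))
  rw [map_sub, U.emb_j, AlgHom.commutes, toMerH_jC_sub,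
    ordMer_algebraMap (jSubHol_ne_zero _)] at h2
  exact ⟨m, by rw [h2, mul_comm]⟩

/-- The ramification index of `j` over `∞` divides `N`. -/
theorem ord_j_dvd (v : Place ℂ F) (h : v.ord U.j < 0) : v.ord U.j ∣ (N : ℤ) := by
  obtain ⟨c, rfl⟩ := (U.places_over_infty.1 v).mp fun hmem => by
    have := (FF.mem_iff_ord v U.j_ne_zero).mp hmem
    omega
  obtain ⟨m, -, hm, -⟩ := U.exists_order_eq c
  rw [U.places_over_infty.2 c, Int.neg_dvd]
  exact ⟨m, by rw [← hm, mul_comm]⟩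

end Uniformisation

end Fermat.Agent.ModFun
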