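import Fermat.Agent.ModFun.Uniformisation
import Fermat.Agent.Gamma0.Coset

/-!
# The embeddings of the function field of `X₀(N)` attached to the cosets
-/

set_option autoImplicit false

noncomputable section

open UpperHalfPlane hiding I
open Function Filter Complex CongruenceSubgroup
open scoped Manifold MatrixGroups Real Topology WithZero

namespace Fermat.Agent.ModFun

variable {N : ℕ} [NeZero N]

/-- The field of `Γ₀(N)` on the upper half plane. -/
abbrev uniformisation0 (N : ℕ) [NeZero N] : Uniformisation N (Gamma0 N) (FC N) where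
  neg_one_mem := Gamma0.neg_one_mem_Gamma0 N
  toField := toFC N
  toField_injective := toFC_injective
  exists_div := exists_div_eq
  separates _ _ h := tr_jd_injective (h (jd (dvd_refl N)))

/-- The embedding `x ↦ x (c⁻¹ τ)` of the function field into meromorphic functions. -/
def emb (N : ℕ) [NeZero N] (c : Coset N) : FC N →ₐ[ℂ] MerH := (uniformisation0 N).emb c

theorem emb_toFC (c : Coset N) (a : Hol N) : emb N c (toFC N a) = toMerH N (tr N c a) :=
  (uniformisation0 N).emb_toField c a

/-- The expansion in `exp (2πiτ/N)` of `x (c⁻¹ τ)`. -/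
def cuspEmb (N : ℕ) [NeZero N] (c : Coset N) : FC N →ₐ[ℂ] LaurentSeries ℂ :=
  (uniformisation0 N).cuspEmb c

theorem cuspEmb_toFC (c : Coset N) (a : Hol N) :
    cuspEmb N c (toFC N a) = laurentExp N (tr N c a) :=
  (uniformisation0 N).cuspEmb_toField c a

variable (N)

/-- `j` in the function field. -/
def jF : FC N := toFC N jInv

/-- `j (N τ)` in the function field. -/
def jNF : FC N := toFC N (jd (dvd_refl N))

variable {N}

theorem coe_jF : (jF N : LaurentSeries ℂ) = ModularCurve.jqModC ℂ := qExp_jInv

theorem coe_jNF : (jNF N : LaurentSeries ℂ) = ModularCurve.jqNModC ℂ N := qExp_jd (dvd_refl N)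

theorem emb_jF (c : Coset N) : emb N c (jF N) = toMerH N (jC N) := (uniformisation0 N).emb_j c

theorem cuspEmb_jF (c : Coset N) : cuspEmb N c (jF N) = laurentExp N (jC N) :=
  (uniformisation0 N).cuspEmb_j c

theorem emb_smul (g : SL(2, ℤ)) (c : Coset N) (x : FC N) :
    actMer g (emb N c x) = emb N (g⁻¹ • c) x :=
  (uniformisation0 N).emb_smul g c x

theorem transcendental_jF : Transcendental ℂ (jF N) := (uniformisation0 N).transcendental_j

end Fermat.Agent.ModFun
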