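import Fermat.Agent.ModFun.CuspPlaces
import Fermat.Agent.JacTorsion.CoeffExt
import Fermat.Agent.FF.Bound
import Fermat.Prelude.Def_ModularCurve_ArithmeticGalois

/-!
# The `ℚ̄`-model of `X₀(N)` inside the complex one

An embedding `ℚ̄ → ℂ`, along which the field of level `N` extends to the complex function field.
-/

set_option autoImplicit false

noncomputable section

open UpperHalfPlane hiding I
open CongruenceSubgroup AlgebraicCurve ModularCurve
open scoped MatrixGroups

namespace Fermat.Agent.ModFun

variable {N : ℕ} [NeZero N]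

/-- An embedding of `ℚ̄` into `ℂ`. -/
def iotaC : AlgebraicClosure ℚ →+* ℂ :=
  haveI : Algebra.IsAlgebraic ℚ (AlgebraicClosure ℚ) := AlgebraicClosure.isAlgebraic ℚ
  (IsAlgClosed.lift : AlgebraicClosure ℚ →ₐ[ℚ] ℂ).toRingHom

omit [NeZero N] in
theorem cExt_bar : JacTorsion.cExt iotaC (modularFunctionFieldBar N) = FC N :=
  (JacTorsion.cExt_laurentBaseChange _).trans (laurentBaseChange_eq_fullC N ℂ)

end Fermat.Agent.ModFun
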