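import Fermat.Agent.ModFun.LevelExt
import Fermat.Agent.JacTorsion.Main
import Fermat.Agent.Periods.Conj
import Mathlib.Analysis.Calculus.Deriv.Star

/-!
# Complex conjugation on the torsion of `J₀(N)`

`h ↦ conj (h (-conj τ))` carries roots of `x` to roots of the conjugate function, so complex
conjugation acts on `ellParHoms (Γ₀(N)) (ℤ/m)` as `-charInvolution`.
-/

set_option autoImplicit false

noncomputable section

open UpperHalfPlane hiding I
open CongruenceSubgroup ModularCurve ModularCurve.Period AlgebraicCurve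
open scoped MatrixGroups Manifold ComplexConjugate

namespace Fermat.Agent.ModFun

/-- `f ↦ conj (f (J τ))` on holomorphic functions. -/
def conjHol : HolH →+* HolH where
  toFun f := ⟨fun τ => conj ((f : ℍ → ℂ) (J • τ)), by
    have hf := UpperHalfPlane.mdifferentiable_iff.mp f.2
    refine UpperHalfPlane.mdifferentiable_iff.mpr fun z hz => ?_
    have hg : DifferentiableAt ℂ (fun w : ℂ => ((f : ℍ → ℂ) ∘ ofComplex) (-w)) (conj z) := by
      have h1 : DifferentiableAt ℂ ((f : ℍ → ℂ) ∘ ofComplex) (-conj z) :=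
        hf.differentiableAt (isOpen_upperHalfPlaneSet.mem_nhds (by simpa using hz))
      exact h1.comp (conj z) differentiable_neg.differentiableAt
    have h2 := hg.conj_conj
    rw [Complex.conj_conj] at h2
    refine (h2.congr_of_eventuallyEq ?_).differentiableWithinAt
    filter_upwards [isOpen_upperHalfPlaneSet.mem_nhds hz] with w hw
    simp only [Function.comp_apply, ofComplex_apply_of_im_pos hw]
    refine congrArg (fun t => conj ((f : ℍ → ℂ) t)) (UpperHalfPlane.ext ?_)
    rw [ofComplex_apply_of_im_pos (by simpa using hw)]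
    rw [coe_J_smul]⟩
  map_one' := Subtype.ext (funext fun _ => by simp)
  map_mul' _ _ := Subtype.ext (funext fun _ => by simp)
  map_zero' := Subtype.ext (funext fun _ => by simp)
  map_add' _ _ := Subtype.ext (funext fun _ => by simp)

theorem coe_conjHol (f : HolH) (τ : ℍ) :
    (conjHol f : ℍ → ℂ) τ = conj ((f : ℍ → ℂ) (J • τ)) := rfl

theorem J_smul_J_smul (τ : ℍ) : J • (J • τ) = τ := by
  rw [← mul_smul, ← sq, J_sq, one_smul]

theorem conjHol_injective : Function.Injective conjHol := fun f g h =>
  Subtype.ext (funext fun τ => by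
    have h1 := congrArg (fun x : HolH => (x : ℍ → ℂ) (J • τ)) h
    simp only [coe_conjHol, J_smul_J_smul] at h1
    exact (starRingEnd ℂ).injective h1)

/-- `x ↦ conj (x (J τ))` on meromorphic functions. -/
def conjMer : MerH →+* MerH :=
  IsFractionRing.lift (A := HolH) (g := (algebraMap HolH MerH).comp conjHol)
    ((IsFractionRing.injective HolH MerH).comp conjHol_injective)

theorem conjMer_algebraMap (f : HolH) :
    conjMer (algebraMap HolH MerH f) = algebraMap HolH MerH (conjHol f) :=
  IsFractionRing.lift_algebraMap _ f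

theorem conjMer_const (c : ℂ) : conjMer (algebraMap ℂ MerH c) = algebraMap ℂ MerH (conj c) := by
  rw [IsScalarTower.algebraMap_apply ℂ HolH MerH, conjMer_algebraMap,
    IsScalarTower.algebraMap_apply ℂ HolH MerH (conj c)]
  rfl

theorem conjMer_actMer (g : SL(2, ℤ)) (x : MerH) :
    conjMer (actMer g x) = actMer (jConjSL g) (conjMer x) := by
  obtain ⟨a, b, -, rfl⟩ := IsFractionRing.div_surjective (A := HolH) x
  have key : ∀ f : HolH, conjHol (actHol g f) = actHol (jConjSL g) (conjHol f) := fun f => by
    refine Subtype.ext (funext fun τ => ?_)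
    rw [coe_conjHol, coe_actHol, coe_actHol, coe_conjHol]
    refine congrArg (fun t => conj ((f : ℍ → ℂ) t)) ?_
    show Matrix.SpecialLinearGroup.mapGL ℝ g • (J • τ)
      = J • (Matrix.SpecialLinearGroup.mapGL ℝ (jConjSL g) • τ)
    rw [← mul_smul, ← mul_smul, Periods.J_mul_mapGL, jConjSL_jConjSL]
  simp only [map_div₀, actMer_algebraMap, conjMer_algebraMap, key]

theorem qFun_J_smul (τ : ℍ) : qFun 1 (J • τ) = conj (qFun 1 τ) := by
  simp only [qFun, Function.Periodic.qParam, coe_J_smul, ← Complex.exp_conj]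
  congr 1
  simp only [map_div₀, map_mul, Complex.conj_ofReal, Complex.conj_I, map_ofNat]
  push_cast
  ring

/-- `j` is real: `j (-conj τ) = conj (j τ)`. -/
theorem jH_J_smul (τ : ℍ) : jH (J • τ) = conj (jH τ) := by
  obtain ⟨n, c, hc, he⟩ := exists_hasSum (jC 1)
  have hreal : ∀ m : ℕ, conj (c m) = c m := by
    intro m
    have h2 : coeffMap (starRingEnd ℂ) (laurentExp 1 (jC 1)) = laurentExp 1 (jC 1) := by
      rw [laurentExp_jC]; exact coeffMap_jqModC _
    have h1 := congrArg (fun x : LaurentSeries ℂ => x.coeff ((m : ℤ) + -(n : ℤ))) h2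
    simp only [coeffMap_coeff] at h1
    rwa [he, HahnSeries.coeff_single_mul_add, one_mul, HahnSeries.ofPowerSeries_apply_coeff,
      PowerSeries.coeff_mk] at h1
  have h3 := (hc τ).map (starRingEnd ℂ) Complex.continuous_conj
  have h4 := hc (J • τ)
  simp only [qFun_J_smul, smul_eq_mul] at h4
  simp only [Function.comp_def, map_mul, smul_eq_mul, map_pow, hreal] at h3
  have h5 := h4.unique h3
  refine mul_left_cancel₀ (pow_ne_zero n ?_) h5
  rw [← qFun_J_smul]; exact qFun_ne_zero _ _

theorem scaleH_J_smul (d : ℕ) [NeZero d] (τ : ℍ) : scaleH d (J • τ) = J • scaleH d τ := by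
  apply UpperHalfPlane.ext
  rw [coe_scaleH, coe_J_smul, coe_J_smul, coe_scaleH, map_mul, map_natCast]
  ring

theorem exists_conjQ : ∃ c : AlgebraicClosure ℚ ≃ₐ[ℚ] AlgebraicClosure ℚ,
    c * c = 1 ∧ ∀ a, JacTorsion.ιQ (c a) = conj (JacTorsion.ιQ a) := by
  have : Algebra.IsAlgebraic ℚ (AlgebraicClosure ℚ) := AlgebraicClosure.isAlgebraic ℚ
  have hex : ∀ a, ∃ b, JacTorsion.ιQ b = conj (JacTorsion.ιQ a) := fun a => by
    refine JacTorsion.mem_range_ιQ ?_
    obtain ⟨P, hP, h⟩ := (AlgebraicClosure.isAlgebraic ℚ).isAlgebraic a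
    refine ⟨P, hP, ?_⟩
    rw [show conj (JacTorsion.ιQ a) = ((starRingEnd ℂ).comp JacTorsion.ιQ).toRatAlgHom a from rfl,
      Polynomial.aeval_algHom_apply]
    exact (congrArg _ h).trans (map_zero _)
  choose c hc using hex
  have hinj := JacTorsion.ιQ.injective
  have hcc : ∀ a, c (c a) = a := fun a => hinj (by rw [hc, hc, Complex.conj_conj])
  refine ⟨{ toFun := c, invFun := c, left_inv := hcc, right_inv := hcc,
            map_mul' := fun a b => hinj (by rw [hc, map_mul, map_mul, map_mul, hc, hc]),
            map_add' := fun a b => hinj (by rw [hc, map_add, map_add, map_add, hc, hc]),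
            commutes' := fun r => hinj (by rw [hc, eq_ratCast, map_ratCast, map_ratCast]) },
    AlgEquiv.ext hcc, hc⟩

variable (N : ℕ) [NeZero N]

set_option maxHeartbeats 1000000 in
theorem toC_conj {c : AlgebraicClosure ℚ ≃ₐ[ℚ] AlgebraicClosure ℚ}
    (hc : ∀ a, JacTorsion.ιQ (c a) = conj (JacTorsion.ιQ a)) (x : modularFunctionFieldBar N) :
    JacTorsion.e1 N (JacTorsion.toC N (arithmeticGalois (L := AlgebraicClosure ℚ) (modularFunctionFieldFull N) c • x))
      = conjMer (JacTorsion.e1 N (JacTorsion.toC N x)) := by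
  have hconst : ∀ a, JacTorsion.toC N (algebraMap (AlgebraicClosure ℚ) _ a)
      = algebraMap ℂ (FC N) (JacTorsion.ιQ a) := fun a => Subtype.ext (by
    rw [JacTorsion.coe_toC]
    show coeffMap JacTorsion.ιQ (algebraMap (AlgebraicClosure ℚ) (LaurentSeries _) a)
      = algebraMap ℂ (LaurentSeries ℂ) _
    rw [algebraMap_laurentSeries_eq_single, algebraMap_laurentSeries_eq_single, coeffMap_single])
  let F : modularFunctionFieldBar N →+* MerH :=
    (JacTorsion.e1 N).toRingHom.comp ((JacTorsion.toC N).comp
      (SemilinearAut.toRingAut (arithmeticGalois (L := AlgebraicClosure ℚ) (modularFunctionFieldFull N) c)).toRingHom)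
  let G : modularFunctionFieldBar N →+* MerH :=
    conjMer.comp ((JacTorsion.e1 N).toRingHom.comp (JacTorsion.toC N))
  refine RingHom.congr_fun (ringHom_ext_level F G (fun a => ?_) fun u hu => ?_) x
  · show JacTorsion.e1 N (JacTorsion.toC N (SemilinearAut.toRingAut
        (arithmeticGalois (L := AlgebraicClosure ℚ) (modularFunctionFieldFull N) c) (algebraMap _ _ a)))
      = conjMer (JacTorsion.e1 N (JacTorsion.toC N (algebraMap _ _ a)))
    rw [SemilinearAut.commutes, baseAut_arithmeticGalois, hconst, hconst, AlgHom.commutes,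
      AlgHom.commutes, conjMer_const]
    exact congrArg _ (hc a)
  · obtain ⟨d, hd, hdN, hu⟩ := hu
    show JacTorsion.e1 N (JacTorsion.toC N (SemilinearAut.toRingAut
        (arithmeticGalois (L := AlgebraicClosure ℚ) (modularFunctionFieldFull N) c) u))
      = conjMer (JacTorsion.e1 N (JacTorsion.toC N u))
    have hfix : SemilinearAut.toRingAut (arithmeticGalois (L := AlgebraicClosure ℚ) (modularFunctionFieldFull N) c) u = u :=
      Subtype.ext (by
        rw [toRingAut_arithmeticGalois, coe_arithmeticRingAut_apply, hu, coeffMap_qExpand,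
          coeffMap_jqModC])
    have hj : JacTorsion.toC N u = toFC N (jd hdN) := Subtype.ext (by
      rw [JacTorsion.coe_toC, hu, coeffMap_qExpand, coeffMap_jqModC]; exact (qExp_jd hdN).symm)
    rw [hfix, hj, JacTorsion.e1_toFC, conjMer_algebraMap]
    refine congrArg (fun t : HolH => algebraMap HolH MerH t) ?_
    apply Subtype.ext
    funext τ
    have hval : ∀ τ' : ℍ, (JacTorsion.holToHolH N (jd hdN) : ℍ → ℂ) τ' = jH (scaleH d τ') :=
      fun τ' => jd_apply hdN τ'
    rw [coe_conjHol, hval, hval, scaleH_J_smul, jH_J_smul, Complex.conj_conj]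

theorem zetaPow_neg {m : ℕ} [NeZero m] (a : ZMod m) :
    JacTorsion.zetaPow m (-a) = conj (JacTorsion.zetaPow m a) := by
  have h1 : JacTorsion.zetaPow m (-a) * JacTorsion.zetaPow m a = 1 := by
    rw [← JacTorsion.zetaPow_add, neg_add_cancel, JacTorsion.zetaPow_zero]
  rw [eq_inv_of_mul_eq_one_left h1]
  refine Complex.inv_eq_conj ?_
  exact Complex.norm_eq_one_of_pow_eq_one (JacTorsion.zetaPow_pow a) (NeZero.ne m)

set_option maxHeartbeats 1000000 in
/-- There is a complex conjugation acting on torsion as `-charInvolution`. -/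
theorem exists_conj_torsionEquiv : ∃ c : AlgebraicClosure ℚ ≃ₐ[ℚ] AlgebraicClosure ℚ, c * c = 1 ∧
    ∀ (m : ℕ) [NeZero m]
      (x y : Pic0.torsion (AlgebraicClosure ℚ) (modularFunctionFieldBar N) m),
      (y : JZero N) = c • (x : JZero N) →
        (JacTorsion.torsionEquiv N m y : Additive (Gamma0 N) →+ ZMod m) =
          -charInvolution N ℤ (ZMod m)
            (JacTorsion.torsionEquiv N m x : Additive (Gamma0 N) →+ ZMod m) := by
  obtain ⟨c, hcc, hc⟩ := exists_conjQ
  refine ⟨c, hcc, fun m _ x y hxy => ?_⟩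
  obtain ⟨f, rfl⟩ := JacTorsion.toTorsion_surjective x
  set g := arithmeticGalois (L := AlgebraicClosure ℚ) (modularFunctionFieldFull N) c with hg
  set u : (modularFunctionFieldBar N)ˣ := (Additive.toMul f).1 with hu
  let u' : (modularFunctionFieldBar N)ˣ :=
    Units.map (SemilinearAut.toRingAut g).toRingHom.toMonoidHom u
  have hord : ∀ P : Place (AlgebraicClosure ℚ) (modularFunctionFieldBar N),
      P.ord (u' : modularFunctionFieldBar N) = (g⁻¹ • P).ord (u : modularFunctionFieldBar N) := by
    intro P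
    have h := SemilinearAut.ord_smul g (g⁻¹ • P) (u : modularFunctionFieldBar N)
    rwa [smul_inv_smul] at h
  let f' : JacTorsion.divGrp (AlgebraicClosure ℚ) (modularFunctionFieldBar N) m :=
    ⟨u', fun P => by rw [hord]; exact (Additive.toMul f).2 _⟩
  have hy : y = JacTorsion.toTorsion (Additive.ofMul f') := by
    refine Subtype.ext (hxy.trans ((galois_smul_pic0_def (modularFunctionFieldFull N) c
      ((JacTorsion.toTorsion f : Pic0.torsion (AlgebraicClosure ℚ)
        (modularFunctionFieldBar N) m) : JZero N)).trans ?_))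
    have e : ((JacTorsion.toTorsion f : Pic0.torsion (AlgebraicClosure ℚ)
        (modularFunctionFieldBar N) m) : JZero N)
        = Pic0.mk ⟨JacTorsion.divQuot (Additive.toMul f), JacTorsion.divQuot_mem_degZero _⟩ := rfl
    rw [e, SemilinearAut.pic0_smul_mk]
    refine congrArg Pic0.mk (Subtype.ext ?_)
    refine Finsupp.ext fun P => ?_
    show (g • (JacTorsion.divQuot (Additive.toMul f))) P = JacTorsion.divQuot f' P
    rw [SemilinearAut.divisor_smul_apply]
    simp only [JacTorsion.divQuot, Finsupp.mapRange_apply, FF.div_apply]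
    rw [← hord]
  obtain ⟨h, hh⟩ := (JacTorsion.uniformisation N).exists_mer_root (JacTorsion.divGrpToC N m (Additive.toMul f))
  rw [JacTorsion.coe_divGrpToC] at hh
  rw [hy, JacTorsion.torsionEquiv_toTorsion,
    show f = Additive.ofMul (Additive.toMul f) from rfl, JacTorsion.torsionEquiv_toTorsion]
  refine (JacTorsion.uniformisation N).rootChar_eq_of_isRootChar _ ?_
  refine JacTorsion.isRootChar_of_root (Units.ne_zero _) (h := conjMer h) ?_ fun γ => ?_
  · rw [JacTorsion.coe_divGrpToC, ← map_pow, hh]
    exact (toC_conj N hc _).symm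
  · have hroot : h ^ m = JacTorsion.e1 N
        (((JacTorsion.divGrpToC N m (Additive.toMul f) : (FC N)ˣ)) : FC N) := by
      rw [JacTorsion.coe_divGrpToC]; exact hh
    have h1 := (JacTorsion.uniformisation N).rootChar_spec (JacTorsion.divGrpToC N m (Additive.toMul f)) h hroot
      (jConjGamma0 N γ)
    have h2 := congrArg conjMer h1
    rw [map_mul, conjMer_actMer, jConjGamma0_coe, jConjSL_jConjSL, conjMer_const,
      ← zetaPow_neg] at h2
    rw [h2]
    rfl

end Fermat.Agent.ModFun
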