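import Fermat.Agent.ModFun.Basic
import Mathlib.Analysis.Analytic.Order
import Mathlib.RingTheory.Valuation.ExtendToLocalization
import Mathlib.RingTheory.Valuation.Discrete.Basic

/-!
# Meromorphic functions on `ℍ`: order valuations and the action of `SL(2,ℤ)`
-/

set_option autoImplicit false

noncomputable section

open UpperHalfPlane hiding I
open Function Filter Complex
open scoped Manifold MatrixGroups Real Topology WithZero

namespace Fermat.Agent.ModFun

theorem analyticAt_HolH (f : HolH) (τ : ℍ) : AnalyticAt ℂ ((f : ℍ → ℂ) ∘ ofComplex) τ :=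
  (UpperHalfPlane.mdifferentiable_iff.mp f.2).analyticOnNhd isOpen_upperHalfPlaneSet _ τ.im_pos

theorem analyticOrderAt_HolH_ne_top {f : HolH} (hf : f ≠ 0) (τ : ℍ) :
    analyticOrderAt ((f : ℍ → ℂ) ∘ ofComplex) τ ≠ ⊤ := by
  intro h
  refine hf (Subtype.ext (funext fun w => ?_))
  have := ((UpperHalfPlane.mdifferentiable_iff.mp f.2).analyticOnNhd
      isOpen_upperHalfPlaneSet).eqOn_zero_of_preconnected_of_eventuallyEq_zero
      (Complex.isConnected_of_upperHalfPlane subset_rfl (fun z hz => show (0:ℝ) ≤ z.im from le_of_lt (show (0:ℝ) < z.im from hz))).isPreconnected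
      τ.im_pos (analyticOrderAt_eq_top.mp h) w.im_pos
  simpa using this

/-- The order of vanishing of `f` at `τ`. -/
def ordHol (τ : ℍ) (f : HolH) : ℕ := analyticOrderNatAt ((f : ℍ → ℂ) ∘ ofComplex) τ

theorem cast_ordHol {f : HolH} (hf : f ≠ 0) (τ : ℍ) :
    (ordHol τ f : ℕ∞) = analyticOrderAt ((f : ℍ → ℂ) ∘ ofComplex) τ :=
  ENat.natCast_toNat (analyticOrderAt_HolH_ne_top hf τ)

theorem ordHol_mul {f g : HolH} (hf : f ≠ 0) (hg : g ≠ 0) (τ : ℍ) :
    ordHol τ (f * g) = ordHol τ f + ordHol τ g := by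
  have h := analyticOrderAt_mul (analyticAt_HolH f τ) (analyticAt_HolH g τ)
  rw [← cast_ordHol hf, ← cast_ordHol hg] at h
  have h' : analyticOrderAt (((f * g : HolH) : ℍ → ℂ) ∘ ofComplex) τ
      = (ordHol τ f + ordHol τ g : ℕ) := by
    rw [Nat.cast_add, ← h]; rfl
  rw [← cast_ordHol (mul_ne_zero hf hg)] at h'
  exact_mod_cast h'

theorem ordHol_add {f g : HolH} (hf : f ≠ 0) (hg : g ≠ 0) (hfg : f + g ≠ 0) (τ : ℍ) :
    min (ordHol τ f) (ordHol τ g) ≤ ordHol τ (f + g) := by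
  have h := le_analyticOrderAt_add (f := (f : ℍ → ℂ) ∘ ofComplex) (g := (g : ℍ → ℂ) ∘ ofComplex)
    (z₀ := (τ : ℂ))
  have he : analyticOrderAt ((f : ℍ → ℂ) ∘ ofComplex + (g : ℍ → ℂ) ∘ ofComplex) (τ : ℂ)
      = analyticOrderAt (((f + g : HolH) : ℍ → ℂ) ∘ ofComplex) τ := rfl
  rw [he, ← cast_ordHol hf, ← cast_ordHol hg, ← cast_ordHol hfg] at h
  rcases min_le_iff.mp h with h | h
  · exact min_le_iff.mpr (Or.inl (by exact_mod_cast h))
  · exact min_le_iff.mpr (Or.inr (by exact_mod_cast h))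

theorem ordHol_pos_iff {f : HolH} (hf : f ≠ 0) (τ : ℍ) :
    0 < ordHol τ f ↔ (f : ℍ → ℂ) τ = 0 := by
  have h := (analyticAt_HolH f τ).analyticOrderAt_eq_zero
  rw [← cast_ordHol hf, Nat.cast_eq_zero] at h
  simp only [comp_apply, ofComplex_apply] at h
  rw [Nat.pos_iff_ne_zero, ne_eq, h, not_not]

theorem ordHol_algebraMap {c : ℂ} (hc : c ≠ 0) (τ : ℍ) : ordHol τ (algebraMap ℂ HolH c) = 0 := by
  by_contra h
  have hne : algebraMap ℂ HolH c ≠ 0 := by
    simpa using hc
  exact hc (by simpa using (ordHol_pos_iff hne τ).mp (Nat.pos_of_ne_zero h))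

open scoped Classical in
/-- `exp (-ord_τ)` on `HolH`. -/
def valHol (τ : ℍ) : Valuation HolH ℤᵐ⁰ where
  toFun f := if f = 0 then 0 else WithZero.exp (-(ordHol τ f : ℤ))
  map_zero' := if_pos rfl
  map_one' := by
    rw [if_neg one_ne_zero, ← map_one (algebraMap ℂ HolH), ordHol_algebraMap one_ne_zero]
    simp
  map_mul' f g := by
    rcases eq_or_ne f 0 with rfl | hf
    · simp
    rcases eq_or_ne g 0 with rfl | hg
    · simp
    rw [if_neg (mul_ne_zero hf hg), if_neg hf, if_neg hg, ← WithZero.exp_add, ordHol_mul hf hg]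
    push_cast
    ring_nf
  map_add_le_max' f g := by
    rcases eq_or_ne f 0 with rfl | hf
    · simp
    rcases eq_or_ne g 0 with rfl | hg
    · simp
    rcases eq_or_ne (f + g) 0 with h | h
    · simp [h]
    have := ordHol_add hf hg h τ
    rw [if_neg hf, if_neg hg, if_neg h, le_max_iff, WithZero.exp_le_exp, WithZero.exp_le_exp]
    omega

theorem valHol_apply {τ : ℍ} {f : HolH} (hf : f ≠ 0) :
    valHol τ f = WithZero.exp (-(ordHol τ f : ℤ)) := if_neg hf

theorem le_primeCompl_valHol (τ : ℍ) : nonZeroDivisors HolH ≤ (valHol τ).supp.primeCompl := by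
  intro f hf
  show f ∉ (valHol τ).supp
  rw [Valuation.mem_supp_iff, valHol_apply (nonZeroDivisors.ne_zero hf)]
  exact WithZero.exp_ne_zero

/-- `exp (-ord_τ)` on meromorphic functions. -/
def valAt (τ : ℍ) : Valuation MerH ℤᵐ⁰ :=
  (valHol τ).extendToLocalization (le_primeCompl_valHol τ) MerH

theorem valAt_algebraMap (τ : ℍ) (f : HolH) : valAt τ (algebraMap HolH MerH f) = valHol τ f :=
  Valuation.extendToLocalization_apply_map_apply _ _ MerH f

/-- The order at `τ` of a meromorphic function (junk `0` at `0`). -/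
def ordMer (τ : ℍ) (x : MerH) : ℤ := -(WithZero.log (valAt τ x))

theorem ordMer_algebraMap {f : HolH} (hf : f ≠ 0) (τ : ℍ) :
    ordMer τ (algebraMap HolH MerH f) = ordHol τ f := by
  simp [ordMer, valAt_algebraMap, valHol_apply hf]

theorem ordMer_mul {x y : MerH} (hx : x ≠ 0) (hy : y ≠ 0) (τ : ℍ) :
    ordMer τ (x * y) = ordMer τ x + ordMer τ y := by
  simp only [ordMer, map_mul,
    WithZero.log_mul ((valAt τ).ne_zero_iff.mpr hx) ((valAt τ).ne_zero_iff.mpr hy)]
  ring

theorem ordMer_inv (x : MerH) (τ : ℍ) : ordMer τ x⁻¹ = -ordMer τ x := by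
  simp [ordMer, map_inv₀]

theorem ordMer_div {f g : HolH} (hf : f ≠ 0) (hg : g ≠ 0) (τ : ℍ) :
    ordMer τ (algebraMap HolH MerH f / algebraMap HolH MerH g)
      = (ordHol τ f : ℤ) - ordHol τ g := by
  have hinj := IsFractionRing.injective HolH MerH
  rw [div_eq_mul_inv, ordMer_mul ((map_ne_zero_iff _ hinj).mpr hf)
    (inv_ne_zero ((map_ne_zero_iff _ hinj).mpr hg)), ordMer_inv, ordMer_algebraMap hf,
    ordMer_algebraMap hg]
  ring

theorem valAt_constant {c : ℂ} (hc : c ≠ 0) (τ : ℍ) : valAt τ (algebraMap ℂ MerH c) = 1 := by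
  have hne : algebraMap ℂ HolH c ≠ 0 := by simpa using hc
  rw [IsScalarTower.algebraMap_apply ℂ HolH MerH, valAt_algebraMap, valHol_apply hne,
    ordHol_algebraMap hc]
  simp

section Act

/-- `f ↦ f ∘ (g • ·)` on holomorphic functions. -/
def actHolHom (g : SL(2, ℤ)) : HolH →ₐ[ℂ] HolH where
  toFun f := ⟨fun τ => (f : ℍ → ℂ) (g • τ),
    f.2.comp (UpperHalfPlane.mdifferentiable_smul
      (g := (Matrix.SpecialLinearGroup.mapGL ℝ g)) (by simp))⟩
  map_one' := rfl
  map_mul' _ _ := rfl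
  map_zero' := rfl
  map_add' _ _ := rfl
  commutes' _ := rfl

/-- `f ↦ f ∘ (g • ·)` as an automorphism of `HolH`. -/
def actHol (g : SL(2, ℤ)) : HolH ≃ₐ[ℂ] HolH :=
  AlgEquiv.ofAlgHom (actHolHom g) (actHolHom g⁻¹)
    (AlgHom.ext fun f => Subtype.ext (funext fun τ => by simp [actHolHom, inv_smul_smul]))
    (AlgHom.ext fun f => Subtype.ext (funext fun τ => by simp [actHolHom, smul_inv_smul]))

@[simp]
theorem coe_actHol (g : SL(2, ℤ)) (f : HolH) (τ : ℍ) :
    (actHol g f : ℍ → ℂ) τ = (f : ℍ → ℂ) (g • τ) := rfl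

/-- `x ↦ x ∘ (g • ·)` on meromorphic functions. -/
def actMer (g : SL(2, ℤ)) : MerH ≃ₐ[ℂ] MerH := IsFractionRing.algEquivOfAlgEquiv (actHol g)

@[simp]
theorem actMer_algebraMap (g : SL(2, ℤ)) (f : HolH) :
    actMer g (algebraMap HolH MerH f) = algebraMap HolH MerH (actHol g f) :=
  IsFractionRing.algEquivOfAlgEquiv_algebraMap _ _

theorem ordHol_actHol (g : SL(2, ℤ)) (f : HolH) (τ : ℍ) :
    ordHol τ (actHol g f) = ordHol (g • τ) f := by
  set G : ℂ → ℂ := fun z => ↑((Matrix.SpecialLinearGroup.mapGL ℝ g : GL (Fin 2) ℝ) • ofComplex z)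
  have hg : 0 < (Matrix.SpecialLinearGroup.mapGL ℝ g : GL (Fin 2) ℝ).val.det := by
    rw [← Matrix.GeneralLinearGroup.val_det_apply]; simp
  have h1 : ((actHol g f : HolH) : ℍ → ℂ) ∘ ofComplex = ((f : ℍ → ℂ) ∘ ofComplex) ∘ G := by
    funext z
    simp only [comp_apply, coe_actHol, G, ofComplex_apply]
    rfl
  have h2 := analyticOrderAt_comp_of_deriv_ne_zero (f := (f : ℍ → ℂ) ∘ ofComplex)
    (τ.analyticAt_smul hg) (τ.deriv_smul_ne_zero hg)
  rw [ordHol, ordHol, analyticOrderNatAt, analyticOrderNatAt, h1, h2]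
  simp only [ofComplex_apply]
  rfl

theorem valAt_actMer (g : SL(2, ℤ)) (x : MerH) (τ : ℍ) :
    valAt τ (actMer g x) = valAt (g • τ) x := by
  obtain ⟨a, b, -, rfl⟩ := IsFractionRing.div_surjective HolH x
  have key : ∀ f : HolH, valHol τ (actHol g f) = valHol (g • τ) f := by
    intro f
    rcases eq_or_ne f 0 with rfl | hf
    · simp
    · rw [valHol_apply hf, valHol_apply (by simpa using hf), ordHol_actHol]
  simp only [map_div₀, actMer_algebraMap, valAt_algebraMap, key]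

end Act

end Fermat.Agent.ModFun
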