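import Fermat.Agent.ModFun.Degree
import Fermat.Agent.ModFun.MerH
import Fermat.Agent.ModFun.Stab
import Fermat.Agent.Genus.LocalValuation
import Fermat.Agent.ModFun.OrbitPlaces

/-!
# Cusp expansions and orders of `j`
-/

set_option autoImplicit false

noncomputable section

open UpperHalfPlane hiding I
open Function Filter Complex CongruenceSubgroup
open scoped Manifold MatrixGroups Real Topology WithZero

namespace Fermat.Agent.ModFun

section ValInf

variable (K : Type*) [Field K]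

open scoped Classical in
/-- `exp (-order)` on Laurent series. -/
def valInf : Valuation (LaurentSeries K) ℤᵐ⁰ where
  toFun x := if x = 0 then 0 else WithZero.exp (-x.order)
  map_zero' := if_pos rfl
  map_one' := by rw [if_neg one_ne_zero]; simp
  map_mul' x y := by
    rcases eq_or_ne x 0 with rfl | hx
    · simp
    rcases eq_or_ne y 0 with rfl | hy
    · simp
    rw [if_neg (mul_ne_zero hx hy), if_neg hx, if_neg hy, ← WithZero.exp_add,
      HahnSeries.order_mul hx hy]
    ring_nf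
  map_add_le_max' x y := by
    rcases eq_or_ne x 0 with rfl | hx
    · simp
    rcases eq_or_ne y 0 with rfl | hy
    · simp
    rcases eq_or_ne (x + y) 0 with h | h
    · simp [h]
    rw [if_neg hx, if_neg hy, if_neg h, le_max_iff, WithZero.exp_le_exp, WithZero.exp_le_exp]
    have := HahnSeries.min_order_le_order_add (x := x) (y := y) h
    omega

variable {K}

theorem valInf_apply {x : LaurentSeries K} (hx : x ≠ 0) :
    valInf K x = WithZero.exp (-x.order) := if_neg hx

theorem ordL_valInf {x : LaurentSeries K} (hx : x ≠ 0) : Genus.ordL (valInf K) x = x.order := by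
  simp [Genus.ordL, valInf_apply hx]

theorem valInf_constant {c : K} (hc : c ≠ 0) :
    valInf K (algebraMap K (LaurentSeries K) c) = 1 := by
  have h : algebraMap K (LaurentSeries K) c ≠ 0 := by simpa using hc
  rw [valInf_apply h, ModularCurve.algebraMap_laurentSeries_eq_single,
    HahnSeries.order_single hc]
  simp

theorem valInf_twist (u : Kˣ) (x : LaurentSeries K) : valInf K (twist u x) = valInf K x := by
  rcases eq_or_ne x 0 with rfl | hx
  · simp
  have h : twist u x ≠ 0 := (map_ne_zero _).mpr hx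
  rw [valInf_apply hx, valInf_apply h]
  congr 2
  refine le_antisymm (HahnSeries.order_le_of_coeff_ne_zero ?_)
    (HahnSeries.order_le_of_coeff_ne_zero ?_)
  · rw [coeff_twist]
    refine mul_ne_zero (Units.ne_zero _) ?_
    rw [← HahnSeries.leadingCoeff_eq, ne_eq, HahnSeries.leadingCoeff_eq_zero]
    exact hx
  · have : (twist u x).coeff (twist u x).order ≠ 0 := by
      rw [← HahnSeries.leadingCoeff_eq, ne_eq, HahnSeries.leadingCoeff_eq_zero]
      exact h
    rw [coeff_twist] at this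
    exact right_ne_zero_of_mul this

end ValInf

variable {N : ℕ} [NeZero N]

/-- `CuspAlg h` inside the meromorphic functions. -/
def toMerH (h : ℕ) : CuspAlg h →ₐ[ℂ] MerH :=
  (IsScalarTower.toAlgHom ℂ HolH MerH).comp (Subalgebra.inclusion (CuspAlg_le_HolH h))

theorem toMerH_apply (h : ℕ) (f : CuspAlg h) :
    toMerH h f = algebraMap HolH MerH ⟨f, CuspAlg_le_HolH h f.2⟩ := rfl

theorem toMerH_injective (h : ℕ) : Function.Injective (toMerH h) := fun _ _ hfg =>
  Subalgebra.inclusion_injective (CuspAlg_le_HolH h) (IsFractionRing.injective HolH MerH hfg)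

omit [NeZero N] in
theorem toMerH_jC : toMerH N (jC N) = algebraMap HolH MerH ⟨jH, mdifferentiable_jH⟩ := rfl

omit [NeZero N] in
theorem toMerH_jC_sub (a : ℂ) :
    toMerH N (jC N) - algebraMap ℂ MerH a = algebraMap HolH MerH (jSubHol a) := by
  rw [toMerH_jC, IsScalarTower.algebraMap_apply ℂ HolH MerH, ← map_sub]
  congr 1

theorem ordHol_jSubHol_jH (τ : ℍ) :
    ordHol τ (jSubHol (jH τ)) = if jH τ = 0 then 3 else if jH τ = 1728 then 2 else 1 := by
  obtain ⟨τ₁, s, e, h1, -, -, -, h2⟩ := exists_stab_special (jH τ)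
  split_ifs with ha ha'
  · have h4 := e4_eq_zero_of_jH_eq_zero ha
    rw [ha, ordHol, analyticOrderNatAt]
    have : ((jSubHol 0 : ℍ → ℂ) ∘ ofComplex) = Genus.jH ∘ ofComplex := by
      funext z; simp [jSubHol, genusJ_eq]
    rw [this, Genus.analyticOrderAt_jH_zero h4]
    rfl
  · have h6 := e6_eq_zero_of_jH_eq ha'
    rw [ha', ordHol, analyticOrderNatAt]
    have : ((jSubHol 1728 : ℍ → ℂ) ∘ ofComplex) = (fun z => Genus.jH z - 1728) ∘ ofComplex := rfl
    rw [this, Genus.analyticOrderAt_jH_sub_1728 h6]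
    rfl
  · generalize hb : jH τ = a at ha ha' ⊢
    rw [ordHol, analyticOrderNatAt]
    have : ((jSubHol a : ℍ → ℂ) ∘ ofComplex) = (fun z => Genus.jH z - a) ∘ ofComplex := rfl
    rw [this, Genus.analyticOrderAt_jH_sub ha ha' (τ := τ) hb]
    rfl

theorem laurentExp_jC_width :
    laurentExp N (jC N) = ModularCurve.qExpand ℂ N (ModularCurve.jqModC ℂ) := by
  rw [← laurentExp_jC]
  have h := laurentExp_mul (h := 1) N (jC 1)
  have key : ∀ (k : ℕ) [NeZero k] (hk : k = N) (x : CuspAlg k), (x : ℍ → ℂ) = jH →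
      laurentExp k x = laurentExp N (jC N) := by
    rintro k _ rfl x hx
    exact congrArg _ (Subtype.ext hx)
  rw [← h]
  exact (key (N * 1) (mul_one N) _ rfl).symm

/-- `exp (-2πi/N)`. -/
def rootInv (N : ℕ) : ℂˣ := Units.mk0 (Complex.exp (-(2 * π * Complex.I / N))) (Complex.exp_ne_zero _)

theorem rootInv_zpow_eq_one {k : ℤ} (h : rootInv N ^ k = 1) : (N : ℤ) ∣ k := by
  have h1 : ((rootInv N ^ k : ℂˣ) : ℂ) = 1 := by rw [h]; rfl
  rw [Units.val_zpow_eq_zpow_val, rootInv, Units.val_mk0, ← Complex.exp_int_mul,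
    Complex.exp_eq_one_iff] at h1
  obtain ⟨n, hn⟩ := h1
  refine ⟨-n, ?_⟩
  have hN : (N : ℂ) ≠ 0 := by exact_mod_cast NeZero.ne N
  have h2 : (k : ℂ) * (2 * π * Complex.I) = ((N : ℂ) * (-n)) * (2 * π * Complex.I) := by
    field_simp at hn
    linear_combination (-(2 * π * Complex.I)) * hn
  have h3 := mul_right_cancel₀ Complex.two_pi_I_ne_zero h2
  exact_mod_cast h3

theorem qFun_shift (τ : ℍ) :
    qFun N (((-1 : ℤ) : ℝ) +ᵥ τ) = (rootInv N : ℂ) * qFun N τ := by
  have hN : (N : ℂ) ≠ 0 := by exact_mod_cast NeZero.ne N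
  simp only [qFun, rootInv, Units.val_mk0, Function.Periodic.qParam, coe_vadd,
    ← Complex.exp_add]
  congr 1
  push_cast
  field_simp

theorem hasSum_shift {f : ℍ → ℂ} {n : ℕ} {c : ℕ → ℂ}
    (hc : ∀ τ : ℍ, HasSum (fun m : ℕ => c m • qFun N τ ^ m) (qFun N τ ^ n * f τ)) (τ : ℍ) :
    HasSum (fun m : ℕ => (((rootInv N ^ (-(n : ℤ)) : ℂˣ) : ℂ) * ((rootInv N : ℂ) ^ m * c m))
        • qFun N τ ^ m)
      (qFun N τ ^ n * f (((-1 : ℤ) : ℝ) +ᵥ τ)) := by
  have h1 := (hc (((-1 : ℤ) : ℝ) +ᵥ τ)).mul_left (((rootInv N ^ (-(n : ℤ)) : ℂˣ) : ℂ))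
  rw [qFun_shift, mul_pow, ← mul_assoc, ← mul_assoc] at h1
  rw [zpow_neg, zpow_natCast, ← Units.val_pow_eq_pow_val, Units.inv_mul, one_mul] at h1
  refine h1.congr_fun fun m => ?_
  simp only [smul_eq_mul, zpow_neg, zpow_natCast]
  rw [mul_pow]
  ring

theorem laurentExp_shift (f g : CuspAlg N)
    (hg : ∀ τ, (g : ℍ → ℂ) τ = (f : ℍ → ℂ) (((-1 : ℤ) : ℝ) +ᵥ τ)) :
    laurentExp N g = twist (rootInv N) (laurentExp N f) := by
  obtain ⟨n, c, hc, he⟩ := exists_hasSum f
  rw [laurentExp_eq_of_hasSum g (n := n) (fun τ => by rw [hg]; exact hasSum_shift hc τ), he,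
    map_mul, twist_single, twist_ofPowerSeries_mk, mul_one]
  rw [show HahnSeries.single (-(n : ℤ)) ((rootInv N ^ (-(n : ℤ)) : ℂˣ) : ℂ)
      = HahnSeries.single (-(n : ℤ)) (1 : ℂ)
        * HahnSeries.C (((rootInv N ^ (-(n : ℤ)) : ℂˣ) : ℂ)) by
    rw [HahnSeries.C_apply, HahnSeries.single_mul_single, one_mul, add_zero],
    mul_assoc, ← HahnSeries.ofPowerSeries_C, ← map_mul]
  congr 2
  ext m
  rw [PowerSeries.coeff_C_mul, PowerSeries.coeff_mk, PowerSeries.coeff_mk]

theorem order_laurentExp_jC :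
    (laurentExp N (jC N)).order = -(N : ℤ) ∧ laurentExp N (jC N) ≠ 0 := by
  rw [laurentExp_jC_width]
  have hc : ((ModularCurve.qExpand ℂ N) (ModularCurve.jqModC ℂ)).coeff (-(N : ℤ)) = 1 := by
    rw [show -(N : ℤ) = (N : ℤ) * -1 by ring, ModularCurve.qExpand_coeff_mul]
    simpa using ModularCurve.coeff_jqModC_pow_self ℂ 1
  have hne : ((ModularCurve.qExpand ℂ N) (ModularCurve.jqModC ℂ)) ≠ 0 := fun h => by
    rw [h] at hc; simp at hc
  refine ⟨le_antisymm (HahnSeries.order_le_of_coeff_ne_zero (by rw [hc]; exact one_ne_zero)) ?_,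
    hne⟩
  by_contra hlt
  push Not at hlt
  have hz : ((ModularCurve.qExpand ℂ N) (ModularCurve.jqModC ℂ)).coeff
      ((ModularCurve.qExpand ℂ N) (ModularCurve.jqModC ℂ)).order ≠ 0 := by
    rw [← HahnSeries.leadingCoeff_eq, ne_eq, HahnSeries.leadingCoeff_eq_zero]
    exact hne
  by_cases hd : (N : ℤ) ∣ ((ModularCurve.qExpand ℂ N) (ModularCurve.jqModC ℂ)).order
  · obtain ⟨k, hk⟩ := hd
    rw [hk, ModularCurve.qExpand_coeff_mul] at hz
    rw [hk] at hlt
    have hk1 : k < -1 := by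
      have hN : (0 : ℤ) < N := by exact_mod_cast Nat.pos_of_ne_zero (NeZero.ne N)
      nlinarith
    have := ModularCurve.coeff_jqModC_pow_of_lt ℂ (b := 1) (m := k) (by simpa using hk1)
    rw [pow_one] at this
    exact hz this
  · exact hz (ModularCurve.qExpand_coeff_of_not_dvd N _ hd)

omit [NeZero N] in
theorem twist_iterate (u : ℂˣ) (n : ℕ) (g : LaurentSeries ℂ) :
    (twist u)^[n] g = twist (u ^ n) g := by
  induction n with
  | zero => ext k; simp
  | succ n ih =>
    rw [Function.iterate_succ_apply', ih]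
    ext k
    simp only [coeff_twist, ← mul_assoc, ← Units.val_mul, pow_succ', mul_zpow]

theorem twist_rootInv_fixed {n : ℕ} {g : LaurentSeries ℂ} (hg : g ≠ 0)
    (h : (twist (rootInv N))^[n] g = g) : (N : ℤ) ∣ (n : ℤ) * g.order := by
  rw [twist_iterate] at h
  have hc : g.coeff g.order ≠ 0 := by
    rw [← HahnSeries.leadingCoeff_eq, ne_eq, HahnSeries.leadingCoeff_eq_zero]; exact hg
  have h1 := congrArg (fun z => z.coeff g.order) h
  simp only [coeff_twist] at h1
  have h2 : (rootInv N ^ n) ^ g.order = 1 :=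
    Units.ext (mul_right_cancel₀ hc (h1.trans (one_mul _).symm))
  rw [← zpow_natCast, ← zpow_mul] at h2
  exact rootInv_zpow_eq_one h2

end Fermat.Agent.ModFun
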