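import Fermat.Agent.ModFun.Embed
import Fermat.Agent.FF.Structure
import Fermat.Agent.Igusa.LaurentExt
import Fermat.Prelude.Def_ModularCurve_ArithmeticGalois
import Mathlib.LinearAlgebra.FreeModule.Finite.Matrix

/-!
# The degree of the function field over `K(j)` in characteristic zero
-/

set_option autoImplicit false

noncomputable section

open Polynomial IntermediateField ModularCurve
open scoped MatrixGroups

namespace Fermat.Agent.ModFun

variable {N : ℕ} [NeZero N]

theorem isAlgebraic_liftK {y : LaurentSeries ℚ} (g : Hol N)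
    (hy : Igusa.liftK ℚ ℂ y = qExp N g) :
    IsAlgebraic (IntermediateField.adjoin ℚ ({jqModC ℚ} : Set (LaurentSeries ℚ))) y := by
  obtain ⟨Q, hQm, -, -, hQ⟩ := exists_charPoly N g
  set n := Q.natDegree
  by_contra hcon
  have hind : LinearIndependent (IntermediateField.adjoin ℚ ({jqModC ℚ} : Set (LaurentSeries ℚ)))
      (fun i : Fin (n + 1) => y ^ (i : ℕ)) := by
    rw [Fintype.linearIndependent_iff]
    intro c hc i
    set P : Polynomial (IntermediateField.adjoin ℚ ({jqModC ℚ} : Set (LaurentSeries ℚ))) :=
      ∑ i : Fin (n + 1), Polynomial.C (c i) * Polynomial.X ^ (i : ℕ)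
    have hP : P = 0 := by
      by_contra hne
      refine hcon ⟨P, hne, ?_⟩
      rw [← hc]
      simp [P, Algebra.smul_def]
    have := congrArg (fun q => Polynomial.coeff q (i : ℕ)) hP
    simp only [P, Polynomial.finsetSum_coeff, Polynomial.coeff_C_mul_X_pow,
      Polynomial.coeff_zero] at this
    rw [Finset.sum_eq_single i] at this
    · simpa using this
    · intro b _ hb
      rw [if_neg fun h => hb (Fin.ext h.symm)]
    · simp
  have h2 : Igusa.PolyIndep (jqModC ℂ) (fun i : Fin (n + 1) => qExp N g ^ (i : ℕ)) := by
    have h3 := ((Igusa.polyIndep_iff_linearIndependent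
      (Igusa.aeval_jqModC_injective (k := ℚ))).mpr hind).liftK (K := ℂ)
    rw [Igusa.liftK_jqModC] at h3
    simpa only [map_pow, hy] using h3
  have h4 := Igusa.polyIndep_iff.mp h2 (fun i => Q.coeff (i : ℕ)) ?_
  · have h5 := congrFun h4 (Fin.last n)
    simp only [Fin.val_last, Pi.zero_apply] at h5
    exact one_ne_zero (hQm.coeff_natDegree.symm.trans h5)
  · have h6 := congrArg (qExp N) hQ
    rw [Polynomial.eval₂_eq_sum_range, map_sum, map_zero] at h6
    rw [Fin.sum_univ_eq_sum_range (fun i => Polynomial.aeval (jqModC ℂ) (Q.coeff i) * qExp N g ^ i)]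
    rw [← h6]
    refine Finset.sum_congr rfl fun i _ => ?_
    rw [map_mul, map_pow, ← qExp_evJ (N := N)]
    rfl

variable (N)

theorem finite_divisorExpansionsC (K : Type*) [Field K] :
    (divisorExpansionsC K N).Finite := by
  refine (N.divisors.finite_toSet.image fun d : ℕ =>
    if h : d = 0 then (0 : LaurentSeries K)
    else haveI : NeZero d := ⟨h⟩; qExpand K d (jqModC K)).subset ?_
  rintro x ⟨d, hd, hdN, rfl⟩
  exact ⟨d, by simpa using ⟨hdN, NeZero.ne N⟩, by simp only [dif_neg hd.out]⟩

theorem finiteDimensional_rat :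
    FiniteDimensional (IntermediateField.adjoin ℚ ({jqModC ℚ} : Set (LaurentSeries ℚ)))
      (IntermediateField.adjoin (IntermediateField.adjoin ℚ ({jqModC ℚ} : Set (LaurentSeries ℚ)))
        (divisorExpansionsC ℚ N)) := by
  have := (finite_divisorExpansionsC N ℚ).to_subtype
  refine IntermediateField.finiteDimensional_adjoin fun x hx => ?_
  obtain ⟨d, hd, hdN, rfl⟩ := hx
  refine (isAlgebraic_liftK (jd hdN) ?_).isIntegral
  rw [qExp_jd, Igusa.liftK, coeffMap_qExpand, coeffMap_jqModC]

variable (K : Type*) [Field K] [CharZero K]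

/-- `j` in the function field over `K`. -/
def jK : modularFunctionFieldFullC K N := ⟨jqModC K, jqModC_mem_full K N⟩

omit [NeZero N] in
omit [CharZero K] in
theorem adjoin_adjoin_eq :
    (IntermediateField.adjoin (IntermediateField.adjoin K ({jqModC K} : Set (LaurentSeries K)))
      (divisorExpansionsC K N)).restrictScalars K = modularFunctionFieldFullC K N := by
  rw [IntermediateField.adjoin_adjoin_left, modularFunctionFieldFullC]
  congr 1
  rw [Set.union_eq_right, Set.singleton_subset_iff]
  have := mem_divisorExpansionsC K N (one_dvd N)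
  rwa [qExpand_one_apply] at this

/-- Extensions over the line, seen inside the ambient series or inside the field. -/
theorem transfer_adjoin {L : Type*} [Field L] {E : IntermediateField L (LaurentSeries L)} (x : E)
    (S : Set (LaurentSeries L))
    (hS : IntermediateField.adjoin L ({(x : LaurentSeries L)} ∪ S) = E) :
    (FiniteDimensional (IntermediateField.adjoin L ({(x : LaurentSeries L)} : Set (LaurentSeries L)))
      (IntermediateField.adjoin
        (IntermediateField.adjoin L ({(x : LaurentSeries L)} : Set (LaurentSeries L))) S) ↔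
        FiniteDimensional L⟮x⟯ E) ∧
    Module.finrank (IntermediateField.adjoin L ({(x : LaurentSeries L)} : Set (LaurentSeries L)))
      (IntermediateField.adjoin
        (IntermediateField.adjoin L ({(x : LaurentSeries L)} : Set (LaurentSeries L))) S) =
      Module.finrank L⟮x⟯ E := by
  set B := IntermediateField.adjoin L ({(x : LaurentSeries L)} : Set (LaurentSeries L))
  have hlift : IntermediateField.lift (L⟮x⟯) = B := by
    rw [IntermediateField.lift_adjoin, Set.image_singleton]
  let i : B ≃+* L⟮x⟯ :=
    ((IntermediateField.equivOfEq hlift.symm).trans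
      (IntermediateField.liftAlgEquiv L⟮x⟯).symm).toRingEquiv
  let j : IntermediateField.adjoin B S ≃+* E :=
    (IntermediateField.equivOfEq (F := L)
      (S := (IntermediateField.adjoin B S).restrictScalars L) (T := E)
      (by rw [IntermediateField.adjoin_adjoin_left, hS])).toRingEquiv
  have hc : (algebraMap L⟮x⟯ E).comp i.toRingHom
      = j.toRingHom.comp (algebraMap B (IntermediateField.adjoin B S)) :=
    RingHom.ext fun b => Subtype.ext rfl
  exact ⟨⟨fun h => Module.Finite.of_equiv_equiv i j hc,
    fun h => Module.Finite.of_equiv_equiv i.symm j.symm (RingHom.ext fun b => j.injective (by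
      have := RingHom.congr_fun hc (i.symm b)
      simp only [RingHom.comp_apply, RingEquiv.toRingHom_eq_coe, RingHom.coe_coe,
        RingEquiv.apply_symm_apply] at this ⊢
      exact this.symm))⟩, Algebra.finrank_eq_of_equiv_equiv i j hc⟩

omit [NeZero N] in
omit [CharZero K] in
theorem transfer_finrank :
    (FiniteDimensional (IntermediateField.adjoin K ({jqModC K} : Set (LaurentSeries K)))
      (IntermediateField.adjoin (IntermediateField.adjoin K ({jqModC K} : Set (LaurentSeries K)))
        (divisorExpansionsC K N)) ↔ FiniteDimensional K⟮jK N K⟯ (modularFunctionFieldFullC K N)) ∧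
    Module.finrank (IntermediateField.adjoin K ({jqModC K} : Set (LaurentSeries K)))
      (IntermediateField.adjoin (IntermediateField.adjoin K ({jqModC K} : Set (LaurentSeries K)))
        (divisorExpansionsC K N)) =
      Module.finrank K⟮jK N K⟯ (modularFunctionFieldFullC K N) :=
  transfer_adjoin (jK N K) _
    ((IntermediateField.adjoin_adjoin_left K _ _).symm.trans (adjoin_adjoin_eq N K))

/-- The degree over `ℂ(j)`. -/
theorem finrank_adjoin_jF :
    FiniteDimensional ℂ⟮jF N⟯ (FC N) ∧
      Module.finrank ℂ⟮jF N⟯ (FC N) = Nat.card (Coset N) := by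
  have := finiteDimensional_rat N
  have h := Igusa.finrank_adjoin_liftK ℂ (Igusa.aeval_jqModC_injective (k := ℚ))
    (by rw [Igusa.liftK_jqModC]; exact Igusa.aeval_jqModC_injective) (divisorExpansionsC ℚ N)
  rw [Igusa.liftK_jqModC, Igusa.liftK_divisorExpansionsC] at h
  have hfin := (transfer_finrank N ℂ).1.mp h.1
  rw [show jK N ℂ = jF N from Subtype.ext coe_jF.symm] at hfin
  have := FF.isFunctionField_of_finite (transcendental_jF (N := N))
  exact ⟨hfin, (uniformisation0 N).finrank_j⟩

/-- **Degree of `X₀(N)` over the `j`-line.** -/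
theorem finrank_fullC :
    FiniteDimensional K⟮jK N K⟯ (modularFunctionFieldFullC K N) ∧
      Module.finrank K⟮jK N K⟯ (modularFunctionFieldFullC K N) = Nat.card (Coset N) := by
  have := finiteDimensional_rat N
  have key : ∀ (L : Type) [Field L] [CharZero L],
      FiniteDimensional L⟮jK N L⟯ (modularFunctionFieldFullC L N) ∧
      Module.finrank L⟮jK N L⟯ (modularFunctionFieldFullC L N)
        = Module.finrank (IntermediateField.adjoin ℚ ({jqModC ℚ} : Set (LaurentSeries ℚ)))
          (IntermediateField.adjoin
            (IntermediateField.adjoin ℚ ({jqModC ℚ} : Set (LaurentSeries ℚ)))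
            (divisorExpansionsC ℚ N)) := by
    intro L _ _
    have h := Igusa.finrank_adjoin_liftK L (Igusa.aeval_jqModC_injective (k := ℚ))
      (by rw [Igusa.liftK_jqModC]; exact Igusa.aeval_jqModC_injective) (divisorExpansionsC ℚ N)
    rw [Igusa.liftK_jqModC, Igusa.liftK_divisorExpansionsC] at h
    exact ⟨(transfer_finrank N L).1.mp h.1, (transfer_finrank N L).2.symm.trans h.2⟩
  have hC : Module.finrank ℂ⟮jK N ℂ⟯ (modularFunctionFieldFullC ℂ N) = Nat.card (Coset N) := by
    have hjk : jK N ℂ = jF N := Subtype.ext coe_jF.symm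
    rw [hjk]
    exact (finrank_adjoin_jF N).2
  have h := Igusa.finrank_adjoin_liftK K (Igusa.aeval_jqModC_injective (k := ℚ))
    (by rw [Igusa.liftK_jqModC]; exact Igusa.aeval_jqModC_injective) (divisorExpansionsC ℚ N)
  rw [Igusa.liftK_jqModC, Igusa.liftK_divisorExpansionsC] at h
  refine ⟨(transfer_finrank N K).1.mp h.1, ?_⟩
  rw [← hC, (key ℂ).2]
  exact (transfer_finrank N K).2.symm.trans h.2

end Fermat.Agent.ModFun
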