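import Fermat.Agent.ModFun.ComplexModel

/-!
# Homomorphisms out of the field of level `N`

They are determined by constants and generators; the expansion in a wider width.
-/

set_option autoImplicit false

noncomputable section

open UpperHalfPlane hiding I
open CongruenceSubgroup ModularCurve IntermediateField
open scoped MatrixGroups

namespace Fermat.Agent.ModFun

theorem laurentExp_width {h h' : ℕ} [NeZero h] [NeZero h'] (k : ℕ) [NeZero k] (hk : k * h = h')
    (f : CuspAlg h) (g : CuspAlg h') (hfg : (g : ℍ → ℂ) = (f : ℍ → ℂ)) :
    laurentExp h' g = qExpand ℂ k (laurentExp h f) := by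
  subst hk
  rw [← laurentExp_mul]
  exact congrArg _ (Subtype.ext hfg)

variable {L : Type*} [Field L] [Algebra ℚ L] {N : ℕ}

/-- A subfield of an adjunction containing constants and generators is everything. -/
theorem mem_of_eq_adjoin {K M : Type*} [Field K] [Field M] [Algebra K M] {S : Set M}
    (E : IntermediateField K M) (hE : E = adjoin K S) (T : Subfield E)
    (hc : ∀ a : K, algebraMap K E a ∈ T) (hgen : ∀ x : E, (x : M) ∈ S → x ∈ T) (x : E) :
    x ∈ T := by
  subst hE
  let T' : IntermediateField K (adjoin K S) := { T with algebraMap_mem' := hc }
  suffices adjoin K S ≤ IntermediateField.lift T' from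
    (IntermediateField.mem_lift x).mp (this x.2)
  rw [IntermediateField.adjoin_le_iff]
  exact fun z hz => (IntermediateField.mem_lift ⟨z, subset_adjoin K S hz⟩).mpr (hgen _ hz)

/-- Ring homomorphisms out of the field of level `N` are determined by constants and generators. -/
theorem ringHom_ext_level {R : Type*} [DivisionRing R]
    (f g : laurentBaseChange L (modularFunctionFieldFull N) →+* R)
    (hc : ∀ a : L, f (algebraMap L _ a) = g (algebraMap L _ a))
    (hgen : ∀ x : laurentBaseChange L (modularFunctionFieldFull N),
      (x : LaurentSeries L) ∈ divisorExpansionsC L N → f x = g x) : f = g :=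
  RingHom.ext fun x =>
    mem_of_eq_adjoin (S := divisorExpansionsC L N) _ (laurentBaseChange_eq_fullC N L)
      (f.eqLocusField g) hc hgen x

end Fermat.Agent.ModFun
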